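import Mathlib
import Fermat.Agent.LT.T7.H589.StepTSpec
import Fermat.Agent.LT.T7.B981.H503.StepSSpec

/-!
# Row LT, tower T7, node T7.L2.1.H2a.A.1.7 `ST589.ShapeTC589` (sub-architect helper311):
# THE CUT -- Spec

OFF-MAIN.  Definitions and frozen Props only (the proved top is `ShapeTTop.lean`).  No hole,
nothing assumed.  ADDITIVE (new names only, suffix `311`).  Vocabulary: `T7/H589/StepTSpec.lean`
(helper589@2f2879f43, sha256 f2cef127), `T7/B981/H503/StepSSpec.lean` (helper503, b4d9e9b9),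
byte-identical copies.

    shapeTC_of311 : PureDC311 K' → PureDC311 K → SphDC311 K' → SphDC311 K → DContC311 K'
        → DContC311 K → DSuppC311 K' → DSuppC311 K → DIntC311 K' → DIntC311 K
        → SS503.PlacesC503 K K' → SS503.UnitSphC503 → ST589.ShapeTC589 K K'      (VERBATIM)

    sphDC_of311 : SphTC311 F → SS503.SphShiftC503 → SphDC311 F

## The local steps

`v` a finite place of `F`, `H` a Hecke coset system at `v`, `z` a scalar uniformiser at `v`;
`h_v = finGL305 v h`, `c = finGL305 v z` (a scalar matrix, `|c₀| = exp(-1)`), `q = N v`.  On the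
functions on `GL₂(F_v)`:

    locT311 v H z ψ (x) = q^{-1/2} ∑_{h ∈ H} ψ (x c⁻¹ h_v)
    locS311 v z ψ (x)   = ψ (x c⁻¹)
    locD311 v H z 0 ψ = 2 ψ,   locD311 v H z 1 ψ = locT311 v H z ψ,
    locD311 v H z (d+2) ψ = locT311 v H z (locD311 v H z (d+1) ψ) - locS311 v z (locD311 v H z d ψ)

(the local forms of `ST589.tStep589`, `sStep589`, `dStep589`).

## The leaves

* **`PureDC311 F`** [L] (ONE field, bookkeeping on components): `dStep589 v H z d` of a pure
  tensor is the pure tensor for the set `T ∪ P` (`v ∈ P`) with the components extended by the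
  unit outside `T` and the component at `v` replaced by its local step `locD311 v H z d`.
* **`SphTC311 F`** [L-XL] (LOCAL; the Hecke algebra of `GL₂(F_v)`, count on the tree): the local
  step `locT311` of the spherical function with the values `A` is the spherical function with
  the values `A'`, `A'(a, b) = q^{-1/2} (q A(a, b-1) + A(a-1, b))` (`a > b`),
  `A'(a, a) = q^{-1/2} (q + 1) A(a, a-1)`; its Satake transform is `(x + y)` times the one of `A`.
* **`SphDC311 F`** [M, from `SphTC311` and the closed leaf `SS503.SphShiftC503`]: the same for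
  `locD311 v H z d` with the factor `x^d + y^d` (the recursion of the Dickson polynomials).
* **`DContC311 F`** [S-M], **`DSuppC311 F`** [S-M], **`DIntC311 F`** [M] (ONE field; Mathlib +
  the definition of `dStep589`): `dStep589 v H z d` preserves the joint continuity of a family,
  the common compact support of a family, and commutes with the integral over a compact
  parameter space with a finite measure.
* `SS503.PlacesC503 K K'`, `SS503.UnitSphC503`: CLOSED leaves of the cut of helper503.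

## FALSITY CHECKS (helper311)

(a) `SphTC311`, `ψ = 1_{GL₂(𝒪)}` (`A = δ_{(0,0)}`): `x c⁻¹ h_v ∈ GL₂(𝒪)` iff
`GL₂(𝒪) x = GL₂(𝒪) h_v⁻¹ c`, and `h ↦ GL₂(𝒪) h_v⁻¹ c` is a bijection of `H` onto
`GL₂(𝒪) \ GL₂(𝒪) λ GL₂(𝒪)`; so `locT311 ψ = q^{-1/2} 1_{K λ K}`, `A' = q^{-1/2} δ_{(1,0)}`,
transform `q^{-1/2} · √q (x + y) = x + y`.  OK.
(b) `SphTC311`, `A = δ_{(α, β)}`, `m = α - β`: `m ≥ 2`: `A' = q^{1/2} δ_{(α, β+1)} + q^{-1/2}
δ_{(α+1, β)}`, transform `(x y)^β (q^{1/2} x y p_{m-1} + q^{-1/2} p_{m+1}) = (x y)^β (x + y) p_m`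
(`p_{m+1} = √q (x+y) p_m - q x y p_{m-1}`: the rule `n + 3` of `T6.satPoly`).  `m = 1`:
`A' = q^{-1/2} (q+1) δ_{(α, α)} + q^{-1/2} δ_{(α+1, β)}`, transform
`q^{-1/2} (x y)^β ((q+1) x y + p₂) = q^{-1/2} (x y)^β p₁² = (x y)^β (x + y) p₁` (the rule `2`).
`m = 0`: `A' = q^{-1/2} δ_{(α+1, α)}`, transform `(x y)^α (x + y)`.  OK.
(c) `locS311`: `SS503.SphShiftC503` with `t = 1` (values `shA503 1 A`, transform multiplied by
`x y`); `(x + y)(x^{d+1} + y^{d+1}) - x y (x^d + y^d) = x^{d+2} + y^{d+2}`; `d = 0`: `2 A`.  OK.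
(d) `PureDC311`, `d = 0`: `2 · pure305 (T ∪ P) (extU503 T f₀) F = 2 · pure305 T f₀ F`
(`H305.PureExtC305`).  `d = 1`: `z⁻¹ h` is supported at `v ∈ T ∪ P` (`IsLocalAtFin`), so
`OutT305 (T ∪ P)`, the components at the other places and at infinity do not change.  The sum
over `h ∈ H` is inside the component at `v`.  Induction: the right hand side is linear in the
function, the left hand side in the component at `v`.  OK.
(e) the top: upstairs `d = 1` at `w`, `N w = (N v)^d`; `w` the only place over `v` (unramified: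
`B.RamIn`): `d = ℓ`, `T6.IsBC ℓ q` is kept: `(x^ℓ + y^ℓ) f^∨(x, y) = (X + Y) φ^∨(X, Y)` at
`X = x^ℓ`, `Y = y^ℓ`; `v` split: `d = 1`, `N w = N v`, ONE factor of the product is multiplied by
`x + y`.  OK.
-/

set_option autoImplicit false

open AutomorphicForm IsDedekindDomain NumberField MeasureTheory
open scoped ComplexConjugate

noncomputable section

namespace Fermat.Agent.LT.T7.H311

open Fermat.Agent.LT.H556 Fermat.Agent.LT.H556.A0 Fermat.Agent.LT.T7
open Fermat.Agent.LT.T7.H305 Fermat.Agent.LT.T7.H893 Fermat.Agent.LT.T7.B981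
open Fermat.Agent.LT.T7.ST589

attribute [local instance] Fermat.Agent.LT.T5.instMeasurableSpaceG

/-! ## 1. The local steps -/

section Steps

variable {F : Type} [Field F] [NumberField F]

/-- **The local step of `T_v`**: `q_v^{-1/2} ∑_{h ∈ H} ψ (x c⁻¹ h_v)`. -/
def locT311 (v : HeightOneSpectrum (𝓞 F)) (H : Finset (G F)) (z : G F)
    (ψ : GL (Fin 2) (v.adicCompletion F) → ℂ) : GL (Fin 2) (v.adicCompletion F) → ℂ :=
  fun x => ((Real.sqrt (Ideal.absNorm v.asIdeal : ℝ) : ℝ) : ℂ)⁻¹
    * ∑ h ∈ H, ψ (x * (finGL305 v z)⁻¹ * finGL305 v h)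

/-- **The local step of `S_v`**: `ψ (x c⁻¹)`. -/
def locS311 (v : HeightOneSpectrum (𝓞 F)) (z : G F)
    (ψ : GL (Fin 2) (v.adicCompletion F) → ℂ) : GL (Fin 2) (v.adicCompletion F) → ℂ :=
  fun x => ψ (x * (finGL305 v z)⁻¹)

/-- **The local step of the Dickson polynomial `x^d + y^d`** (the local form of
`ST589.dStep589`). -/
def locD311 (v : HeightOneSpectrum (𝓞 F)) (H : Finset (G F)) (z : G F) :
    ℕ → (GL (Fin 2) (v.adicCompletion F) → ℂ) → GL (Fin 2) (v.adicCompletion F) → ℂ
  | 0, ψ => fun x => 2 * ψ x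
  | 1, ψ => locT311 v H z ψ
  | (d + 2), ψ => fun x =>
      locT311 v H z (locD311 v H z (d + 1) ψ) x - locS311 v z (locD311 v H z d ψ) x

end Steps

/-! ## 2. The leaves (ONE field) -/

section OneField

variable (F : Type) [Field F] [NumberField F]

/-- **LEAF ShT.1 = PURE-D ([L]; bookkeeping on components).**  See the header, (d). -/
def PureDC311 : Prop :=
  open Classical in
  ∀ (T P : Finset (HeightOneSpectrum (𝓞 F)))
    (f₀ : ∀ v : HeightOneSpectrum (𝓞 F), GL (Fin 2) (v.adicCompletion F) → ℂ)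
    (Fc : InfinitePlace F → GL (Fin 2) ℂ → ℂ) (v : HeightOneSpectrum (𝓞 F)), v ∈ P →
    ∀ (H : Finset (G F)) (z : G F), IsHeckeCosetSystem v H → IsScalarUniformizerAt v z →
    ∀ (d : ℕ) (h : G F),
      pure305 (T ∪ P)
          (Function.update (SS503.extU503 T f₀) v (locD311 v H z d (SS503.extU503 T f₀ v))) Fc h
        = dStep589 v H z d (pure305 T f₀ Fc) h

/-- **LEAF ShT.2 = SPH-T ([L-XL]; LOCAL: the Hecke algebra of `GL₂(F_v)`).**  The local step of
`T_v` of a spherical function is spherical, and its Satake transform is multiplied by `x + y`.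
See the header, (a), (b). -/
def SphTC311 : Prop :=
  ∀ (v : HeightOneSpectrum (𝓞 F)) (H : Finset (G F)) (z : G F),
    IsHeckeCosetSystem v H → IsScalarUniformizerAt v z →
    ∀ (ψ : GL (Fin 2) (v.adicCompletion F) → ℂ) (A : (ℤ × ℤ) →₀ ℂ), IsSphFn893 ψ A →
      ∃ A' : (ℤ × ℤ) →₀ ℂ, IsSphFn893 (locT311 v H z ψ) A' ∧
        ∀ x y : ℂ, x ≠ 0 → y ≠ 0 →
          satT893 (Ideal.absNorm v.asIdeal) A' x y
            = (x + y) * satT893 (Ideal.absNorm v.asIdeal) A x y

/-- **LEAF ShT.3 = SPH-D ([M]; from `SphTC311` and `SS503.SphShiftC503`).**  The local step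
`locD311 v H z d` of a spherical function is spherical, and its Satake transform is multiplied
by `x^d + y^d`.  See the header, (c). -/
def SphDC311 : Prop :=
  ∀ (v : HeightOneSpectrum (𝓞 F)) (H : Finset (G F)) (z : G F),
    IsHeckeCosetSystem v H → IsScalarUniformizerAt v z →
    ∀ (d : ℕ) (ψ : GL (Fin 2) (v.adicCompletion F) → ℂ) (A : (ℤ × ℤ) →₀ ℂ), IsSphFn893 ψ A →
      ∃ A' : (ℤ × ℤ) →₀ ℂ, IsSphFn893 (locD311 v H z d ψ) A' ∧
        ∀ x y : ℂ, x ≠ 0 → y ≠ 0 →
          satT893 (Ideal.absNorm v.asIdeal) A' x y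
            = (x ^ d + y ^ d) * satT893 (Ideal.absNorm v.asIdeal) A x y

/-- **LEAF ShT.3' = SPH-REC ([M]).**  `SphDC311` from `SphTC311` and the closed leaf
`SS503.SphShiftC503` (induction on `d`; the values of a difference are the difference of the
values, `satT893` is additive). -/
def SphRecC311 : Prop :=
  SphTC311 F → SS503.SphShiftC503 → SphDC311 F

/-- **LEAF ShT.4 = D-CONT ([S-M]).**  `dStep589` preserves the joint continuity of a family.
Proof.  Induction on `d`; finite sums of compositions with `(a, g) ↦ (a, g z⁻¹ h)`. -/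
def DContC311 : Prop :=
  ∀ (Ω : Type) [TopologicalSpace Ω] (f : Ω → G F → ℂ),
    Continuous (fun p : Ω × G F => f p.1 p.2) →
    ∀ (v : HeightOneSpectrum (𝓞 F)) (H : Finset (G F)) (z : G F) (d : ℕ),
      Continuous (fun p : Ω × G F => dStep589 v H z d (f p.1) p.2)

/-- **LEAF ShT.5 = D-SUPP ([S-M]).**  `dStep589` preserves the common compact support of a
family.
Proof.  Induction on `d`; `tStep589`: the union of the translates `C (z⁻¹ h)⁻¹`, `h ∈ H`. -/
def DSuppC311 : Prop :=
  ∀ (Ω : Type) (f : Ω → G F → ℂ) (C : Set (G F)), IsCompact C →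
    (∀ (a : Ω) (h : G F), f a h ≠ 0 → h ∈ C) →
    ∀ (v : HeightOneSpectrum (𝓞 F)) (H : Finset (G F)) (z : G F) (d : ℕ),
      ∃ C' : Set (G F), IsCompact C' ∧
        ∀ (a : Ω) (h : G F), dStep589 v H z d (f a) h ≠ 0 → h ∈ C'

/-- **LEAF ShT.6 = D-INT ([M]).**  `dStep589` commutes with the integral of a jointly
continuous family over a compact parameter space with a finite measure.
Proof.  Induction on `d`; `a ↦ f a x` is continuous on the compact space `Ω`, hence bounded,
hence integrable for the finite measure `ν`; the integral is linear. -/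
def DIntC311 : Prop :=
  ∀ (Ω : Type) [TopologicalSpace Ω] [CompactSpace Ω] [MeasurableSpace Ω] [BorelSpace Ω]
    (ν : Measure Ω) [IsFiniteMeasure ν] (f : Ω → G F → ℂ),
    Continuous (fun p : Ω × G F => f p.1 p.2) →
    ∀ φ : G F → ℂ, (∀ h : G F, φ h = ∫ a, f a h ∂ν) →
    ∀ (v : HeightOneSpectrum (𝓞 F)) (H : Finset (G F)) (z : G F) (d : ℕ) (h : G F),
      dStep589 v H z d φ h = ∫ a, dStep589 v H z d (f a) h ∂ν

end OneField

/-! ## Appendix: the equation lemmas of the definitions of this file are realised HERE -/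

theorem eqns_realised_shapeT311 : True := by
  have _a0 := @locT311.eq_1
  have _a1 := @locS311.eq_1
  have _a2 := @locD311.eq_1
  have _a3 := @locD311.eq_2
  have _a4 := @locD311.eq_3
  have _a5 := @locD311.eq_def
  have _a6 := @locT311.eq_def
  have _a7 := @locS311.eq_def
  have _b0 := @PureDC311.eq_1
  have _b1 := @SphTC311.eq_1
  have _b2 := @SphDC311.eq_1
  have _b3 := @SphRecC311.eq_1
  have _b4 := @DContC311.eq_1
  have _b5 := @DSuppC311.eq_1
  have _b6 := @DIntC311.eq_1
  have _c0 := @PureDC311.eq_def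
  have _c1 := @SphTC311.eq_def
  have _c2 := @SphDC311.eq_def
  have _c3 := @SphRecC311.eq_def
  have _c4 := @DContC311.eq_def
  have _c5 := @DSuppC311.eq_def
  have _c6 := @DIntC311.eq_def
  have _d0 := @locT311.eq_unfold
  have _d1 := @locS311.eq_unfold
  have _d2 := @locD311.eq_unfold
  have _d3 := @PureDC311.eq_unfold
  have _d4 := @SphTC311.eq_unfold
  have _d5 := @SphDC311.eq_unfold
  have _d6 := @SphRecC311.eq_unfold
  have _d7 := @DContC311.eq_unfold
  have _d8 := @DSuppC311.eq_unfold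
  have _d9 := @DIntC311.eq_unfold
  trivial

end Fermat.Agent.LT.T7.H311

end
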