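import Mathlib
import Fermat.Agent.LT.T7.H311.ShapeTSpec
import Fermat.Agent.LT.T7.B981.H503.StepSTop

/-!
# Row LT, tower T7, node T7.L2.1.H2a.A.1.7 `ST589.ShapeTC589` (sub-architect helper311):
# THE CUT -- proved Top

OFF-MAIN.  Complete proofs, nothing assumed.

    shapeTC_of311 : PureDC311 K' → PureDC311 K → SphDC311 K' → SphDC311 K → DContC311 K'
        → DContC311 K → DSuppC311 K' → DSuppC311 K → DIntC311 K' → DIntC311 K
        → SS503.PlacesC503 K K' → SS503.UnitSphC503 → ST589.ShapeTC589 K K'      (VERBATIM)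

Mirror of `SS503.shape_new503` (helper503) with the local steps `locD311` in place of the
translations.
-/

set_option autoImplicit false
set_option linter.unusedSectionVars false
set_option linter.unusedVariables false

open AutomorphicForm IsDedekindDomain NumberField MeasureTheory
open scoped ComplexConjugate

noncomputable section

namespace Fermat.Agent.LT.T7.H311

open Fermat.Agent.LT.H556 Fermat.Agent.LT.H556.A0 Fermat.Agent.LT.T7
open Fermat.Agent.LT.T7.H305 Fermat.Agent.LT.T7.H893 Fermat.Agent.LT.T7.B981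
open Fermat.Agent.LT.T7.ST589 Fermat.Agent.LT.T7.B981.SS503

attribute [local instance] Fermat.Agent.LT.T5.instMeasurableSpaceG

/-! ## 1. The spherical components outside the level -/

section Sph

variable {K K' : Type} [Field K] [NumberField K] [Field K'] [NumberField K'] [Algebra K K']

open Classical in
/-- **The spherical components of the new pair.** -/
theorem sphOut_newT311 (hSD : SphDC311 K) (hSD' : SphDC311 K') (hUn : UnitSphC503) (ℓ : ℕ)
    {T₀ T : Finset (HeightOneSpectrum (𝓞 K))} {T' : Finset (HeightOneSpectrum (𝓞 K'))}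
    (hOver : IsOver305 T T')
    {φ₀ : ∀ w : HeightOneSpectrum (𝓞 K'), GL (Fin 2) (w.adicCompletion K') → ℂ}
    {f₀ : ∀ v : HeightOneSpectrum (𝓞 K), GL (Fin 2) (v.adicCompletion K) → ℂ}
    (hsph : SphOut893 ℓ T₀ T φ₀ f₀)
    {v : HeightOneSpectrum (𝓞 K)} {w : HeightOneSpectrum (𝓞 K')} {d : ℕ}
    (hv0 : v ∉ T₀) (hres : HasResDeg K K' v w d)
    (hinert : (∀ w' : HeightOneSpectrum (𝓞 K'), PlaceOver K K' v w' → w' = w) → d = ℓ)
    (hsplit : ∀ u : ℕ → HeightOneSpectrum (𝓞 K'), (∀ j : ℕ, PlaceOver K K' v (u j)) →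
      (∀ j j' : ℕ, j < ℓ → j' < ℓ → u j = u j' → j = j') →
      d = 1 ∧ ∃ j : ℕ, j < ℓ ∧ u j = w)
    {H' : Finset (G K')} {z' : G K'} {H : Finset (G K)} {z : G K}
    (hH' : IsHeckeCosetSystem w H') (hz' : IsScalarUniformizerAt w z')
    (hH : IsHeckeCosetSystem v H) (hz : IsScalarUniformizerAt v z) :
    SphOut893 ℓ T₀ (T ∪ {v})
      (Function.update (extU503 T' φ₀) w (locD311 w H' z' 1 (extU503 T' φ₀ w)))
      (Function.update (extU503 T f₀) v (locD311 v H z d (extU503 T f₀ v))) := by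
  have hvw : PlaceOver K K' v w := hres.1
  intro v' hv' hv0'
  by_cases hvv : v' = v
  · subst hvv
    obtain ⟨A, Av, h1, h2, h3, h4⟩ := sphData_ext503 hUn ℓ hOver hsph v' hv0
    obtain ⟨Av', hAv', hsat⟩ := hSD v' H z hH hz d (extU503 T f₀ v') Av h1
    obtain ⟨Aw', hAw', hsatw⟩ := hSD' w H' z' hH' hz' 1 (extU503 T' φ₀ w) (A w) (h2 w hvw)
    refine ⟨fun w' => if w' = w then Aw' else A w', Av', ?_, ?_, ?_, ?_⟩
    · rw [Function.update_self]
      exact hAv'
    · intro w' hw'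
      by_cases hww : w' = w
      · subst hww
        beta_reduce
        rw [if_pos rfl, Function.update_self]
        exact hAw'
      · beta_reduce
        rw [if_neg hww, Function.update_of_ne hww]
        exact h2 w' hw'
    · intro w' hw' huniq
      have hww : w = w' := huniq w hvw
      subst hww
      beta_reduce
      rw [if_pos rfl]
      have hd : d = ℓ := hinert huniq
      have hN : Ideal.absNorm w.asIdeal = Ideal.absNorm v'.asIdeal ^ ℓ := by
        rw [hres.2, hd]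
      rw [isBC_def503]
      intro x y hx hy
      have e1 := hsat x y hx hy
      have e2 := hsatw (x ^ ℓ) (y ^ ℓ) (pow_ne_zero ℓ hx) (pow_ne_zero ℓ hy)
      have e3 := (isBC_def503 ℓ _ _ _).1 (h3 w hw' huniq) x y hx hy
      rw [hN, pow_one, pow_one] at e2
      rw [e1, e2, e3, hd]
    · intro u hu hinj x y hx hy
      obtain ⟨hd, j₀, hj₀, hj₀w⟩ := hsplit u hu hinj
      have hN : Ideal.absNorm w.asIdeal = Ideal.absNorm v'.asIdeal := by
        rw [hres.2, hd, pow_one]
      have e1 := hsat x y hx hy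
      have e2 := hsatw x y hx hy
      rw [hN, pow_one, pow_one] at e2
      rw [hd, pow_one, pow_one] at e1
      beta_reduce
      rw [e1, h4 u hu hinj x y hx hy,
        ← Finset.mul_prod_erase (Finset.range ℓ) _ (Finset.mem_range.2 hj₀),
        ← Finset.mul_prod_erase (Finset.range ℓ)
          (fun j => satT893 (Ideal.absNorm v'.asIdeal)
            (if u j = w then Aw' else A (u j)) x y) (Finset.mem_range.2 hj₀)]
      have h5 : satT893 (Ideal.absNorm v'.asIdeal)
          (if u j₀ = w then Aw' else A (u j₀)) x y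
          = (x + y) * satT893 (Ideal.absNorm v'.asIdeal) (A (u j₀)) x y := by
        rw [if_pos hj₀w, e2, hj₀w]
      have h6 : ∏ j ∈ (Finset.range ℓ).erase j₀, satT893 (Ideal.absNorm v'.asIdeal)
          (if u j = w then Aw' else A (u j)) x y
          = ∏ j ∈ (Finset.range ℓ).erase j₀,
              satT893 (Ideal.absNorm v'.asIdeal) (A (u j)) x y := by
        refine Finset.prod_congr rfl fun j hj => ?_
        have hjne : j ≠ j₀ := (Finset.mem_erase.1 hj).1
        have hjl : j < ℓ := Finset.mem_range.1 (Finset.mem_erase.1 hj).2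
        have hne : u j ≠ w := fun h => hjne (hinj j j₀ hjl hj₀ (h.trans hj₀w.symm))
        rw [if_neg hne]
      rw [h5, h6]
      ring
  · have hvT : v' ∈ T := by
      rcases Finset.mem_union.1 hv' with h | h
      · exact h
      · exact absurd (Finset.mem_singleton.1 h) hvv
    obtain ⟨A, Av, h1, h2, h3, h4⟩ := hsph v' hvT hv0'
    refine ⟨A, Av, ?_, ?_, h3, h4⟩
    · rw [Function.update_of_ne hvv, extU_of_mem503 f₀ hvT]
      exact h1
    · intro w' hw'
      have hww : w' ≠ w := fun h => hvv (H557.placeOver_unique_557 (h ▸ hw') hvw)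
      have hwT : w' ∈ T' := (hOver w').2 ⟨v', hvT, hw'⟩
      rw [Function.update_of_ne hww, extU_of_mem503 φ₀ hwT]
      exact h2 w' hw'

open Classical in
/-- **The local condition of the new components.** -/
theorem locA_newT311 (hSD : SphDC311 K) (hSD' : SphDC311 K') (hUn : UnitSphC503)
    (B : L2Base K K') (𝔫 : Ideal (𝓞 K)) (μc : @Measure (GL (Fin 2) ℂ) (borel _))
    {T₀ T : Finset (HeightOneSpectrum (𝓞 K))} {T' : Finset (HeightOneSpectrum (𝓞 K'))}
    {n : HeightOneSpectrum (𝓞 K') → ℕ} {m : HeightOneSpectrum (𝓞 K) → ℕ}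
    (hT₀ : T₀ ⊆ T) (hOver : IsOver305 T T')
    {φ₀ : ∀ w : HeightOneSpectrum (𝓞 K'), GL (Fin 2) (w.adicCompletion K') → ℂ}
    {Φ : InfinitePlace K' → GL (Fin 2) ℂ → ℂ}
    {f₀ : ∀ v : HeightOneSpectrum (𝓞 K), GL (Fin 2) (v.adicCompletion K) → ℂ}
    {F : InfinitePlace K → GL (Fin 2) ℂ → ℂ}
    (hloc : LocA893 B 𝔫 μc T₀ n m T φ₀ Φ f₀ F)
    {v : HeightOneSpectrum (𝓞 K)} {w : HeightOneSpectrum (𝓞 K')} {d : ℕ}
    (hv0 : v ∉ T₀) (hres : HasResDeg K K' v w d)
    (hinert : (∀ w' : HeightOneSpectrum (𝓞 K'), PlaceOver K K' v w' → w' = w) → d = B.l)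
    (hsplit : ∀ u : ℕ → HeightOneSpectrum (𝓞 K'), (∀ j : ℕ, PlaceOver K K' v (u j)) →
      (∀ j j' : ℕ, j < B.l → j' < B.l → u j = u j' → j = j') →
      d = 1 ∧ ∃ j : ℕ, j < B.l ∧ u j = w)
    {H' : Finset (G K')} {z' : G K'} {H : Finset (G K)} {z : G K}
    (hH' : IsHeckeCosetSystem w H') (hz' : IsScalarUniformizerAt w z')
    (hH : IsHeckeCosetSystem v H) (hz : IsScalarUniformizerAt v z) :
    LocA893 B 𝔫 μc T₀ n m (T ∪ {v})
      (Function.update (extU503 T' φ₀) w (locD311 w H' z' 1 (extU503 T' φ₀ w))) Φ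
      (Function.update (extU503 T f₀) v (locD311 v H z d (extU503 T f₀ v))) F := by
  have hvw : PlaceOver K K' v w := hres.1
  obtain ⟨h1, h2, h3, h4⟩ := hloc
  refine ⟨?_, ?_, ?_, ?_⟩
  · intro v' hv'
    have hne : v' ≠ v := fun h => hv0 (h ▸ hv')
    rw [Function.update_of_ne hne, extU_of_mem503 f₀ (hT₀ hv')]
    exact h1 v' hv'
  · intro v' hv' w' hw'
    have hne : w' ≠ w := fun h =>
      hv0 ((H557.placeOver_unique_557 (h ▸ hw') hvw) ▸ hv')
    have hwT : w' ∈ T' := (hOver w').2 ⟨v', hT₀ hv', hw'⟩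
    rw [Function.update_of_ne hne, extU_of_mem503 φ₀ hwT]
    exact h2 v' hv' w' hw'
  · exact sphOut_newT311 hSD hSD' hUn B.l hOver h3 hv0 hres hinert hsplit hH' hz' hH hz
  · exact archOk_congr503 h4

end Sph

/-! ## 2. The average of pure tensors of the new pair -/

section Avg

variable {K K' : Type} [Field K] [NumberField K] [Field K'] [NumberField K'] [Algebra K K']

open Classical in
/-- **The new pair is an average of pure tensors with the local condition `LocA893`.** -/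
theorem shape_newT311 (hPu' : PureDC311 K') (hPu : PureDC311 K) (hSD' : SphDC311 K')
    (hSD : SphDC311 K) (hC' : DContC311 K') (hC : DContC311 K) (hS' : DSuppC311 K')
    (hS : DSuppC311 K) (hI' : DIntC311 K') (hI : DIntC311 K) (hUn : UnitSphC503)
    (hDT' : DTestC589 K') (hDT : DTestC589 K)
    (B : L2Base K K') (𝔫 : Ideal (𝓞 K)) (μc : @Measure (GL (Fin 2) ℂ) (borel _))
    {T₀ : Finset (HeightOneSpectrum (𝓞 K))}
    {n : HeightOneSpectrum (𝓞 K') → ℕ} {m : HeightOneSpectrum (𝓞 K) → ℕ}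
    {φ : G K' → ℂ} {f : G K → ℂ}
    (hshape : IsAvgPure (upI (K' := K') 𝔫) 𝔫 T₀ (LocA893 B 𝔫 μc T₀ n m) 1 φ f)
    {v : HeightOneSpectrum (𝓞 K)} {w : HeightOneSpectrum (𝓞 K')} {d : ℕ}
    (P : Finset (HeightOneSpectrum (𝓞 K')))
    (hP : ∀ w' : HeightOneSpectrum (𝓞 K'), w' ∈ P ↔ PlaceOver K K' v w')
    (hv0 : v ∉ T₀) (hres : HasResDeg K K' v w d)
    (hinert : (∀ w' : HeightOneSpectrum (𝓞 K'), PlaceOver K K' v w' → w' = w) → d = B.l)
    (hsplit : ∀ u : ℕ → HeightOneSpectrum (𝓞 K'), (∀ j : ℕ, PlaceOver K K' v (u j)) →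
      (∀ j j' : ℕ, j < B.l → j' < B.l → u j = u j' → j = j') →
      d = 1 ∧ ∃ j : ℕ, j < B.l ∧ u j = w)
    (hvn : ¬ v.asIdeal ∣ 𝔫) (hwn : ¬ w.asIdeal ∣ upI (K' := K') 𝔫)
    {H' : Finset (G K')} {z' : G K'} {H : Finset (G K)} {z : G K}
    (hH' : IsHeckeCosetSystem w H') (hz' : IsScalarUniformizerAt w z')
    (hH : IsHeckeCosetSystem v H) (hz : IsScalarUniformizerAt v z) :
    IsAvgPure (upI (K' := K') 𝔫) 𝔫 T₀ (LocA893 B 𝔫 μc T₀ n m) 1
      (dStep589 w H' z' 1 φ) (dStep589 v H z d f) := by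
  obtain ⟨Ω, i1, i2, i3, i4, i5, i6, ν, i7, T, T', φ₀, Φc, f₀, Fc, hA, hB1, hB2, hC1, hC2,
    ⟨C', hC'c, hD1⟩, ⟨C, hCc, hD2⟩, hE1, hE2⟩ := hshape
  have hvw : PlaceOver K K' v w := hres.1
  have hwP : w ∈ P := (hP w).2 hvw
  have hvS : v ∈ ({v} : Finset (HeightOneSpectrum (𝓞 K))) := Finset.mem_singleton_self v
  -- the key identities
  have hup : ∀ (a : Ω) (h : G K'),
      pure305 (T' a ∪ P) (Function.update (extU503 (T' a) (φ₀ a)) w
          (locD311 w H' z' 1 (extU503 (T' a) (φ₀ a) w))) (Φc a) h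
        = dStep589 w H' z' 1 (pure305 (T' a) (φ₀ a) (Φc a)) h := fun a h =>
    hPu' (T' a) P (φ₀ a) (Φc a) w hwP H' z' hH' hz' 1 h
  have hdn : ∀ (a : Ω) (h : G K),
      pure305 (T a ∪ {v}) (Function.update (extU503 (T a) (f₀ a)) v
          (locD311 v H z d (extU503 (T a) (f₀ a) v))) (Fc a) h
        = dStep589 v H z d (pure305 (T a) (f₀ a) (Fc a)) h := fun a h =>
    hPu (T a) {v} (f₀ a) (Fc a) v hvS H z hH hz d h
  have hone : ∀ a : Ω, (fun h => (1 : ℂ) * pure305 (T a) (f₀ a) (Fc a) h)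
      = pure305 (T a) (f₀ a) (Fc a) := fun a => funext fun h => one_mul _
  have hC2' : Continuous (fun p : Ω × G K => pure305 (T p.1) (f₀ p.1) (Fc p.1) p.2) := by
    have e : (fun p : Ω × G K => pure305 (T p.1) (f₀ p.1) (Fc p.1) p.2)
        = fun p : Ω × G K => (1 : ℂ) * pure305 (T p.1) (f₀ p.1) (Fc p.1) p.2 :=
      funext fun p => (one_mul _).symm
    rw [e]
    exact hC2
  have hE2' : ∀ h : G K, f h = ∫ a, pure305 (T a) (f₀ a) (Fc a) h ∂ν := by
    intro h
    rw [hE2 h]
    exact integral_congr_ae (Filter.Eventually.of_forall fun a => one_mul _)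
  refine ⟨Ω, i1, i2, i3, i4, i5, i6, ν, i7, fun a => T a ∪ {v}, fun a => T' a ∪ P,
    fun a => Function.update (extU503 (T' a) (φ₀ a)) w
      (locD311 w H' z' 1 (extU503 (T' a) (φ₀ a) w)), Φc,
    fun a => Function.update (extU503 (T a) (f₀ a)) v
      (locD311 v H z d (extU503 (T a) (f₀ a) v)), Fc,
    ?_, ?_, ?_, ?_, ?_, ?_, ?_, ?_, ?_⟩
  · -- the local conditions
    intro a
    obtain ⟨hT₀, hOver, hloc⟩ := hA a
    refine ⟨fun x hx => Finset.mem_union_left _ (hT₀ hx), ?_, ?_⟩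
    · intro w'
      constructor
      · intro hw'
        rcases Finset.mem_union.1 hw' with h | h
        · obtain ⟨v', hv', hvw'⟩ := (hOver w').1 h
          exact ⟨v', Finset.mem_union_left _ hv', hvw'⟩
        · exact ⟨v, Finset.mem_union_right _ hvS, (hP w').1 h⟩
      · rintro ⟨v', hv', hvw'⟩
        rcases Finset.mem_union.1 hv' with h | h
        · exact Finset.mem_union_left _ ((hOver w').2 ⟨v', h, hvw'⟩)
        · have hvv : v' = v := Finset.mem_singleton.1 h
          exact Finset.mem_union_right _ ((hP w').2 (hvv ▸ hvw'))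
    · exact locA_newT311 hSD hSD' hUn B 𝔫 μc hT₀ hOver hloc hv0 hres hinert hsplit
        hH' hz' hH hz
  · -- the members upstairs are test functions
    intro a
    have h : pure305 (T' a ∪ P) (Function.update (extU503 (T' a) (φ₀ a)) w
          (locD311 w H' z' 1 (extU503 (T' a) (φ₀ a) w))) (Φc a)
        = dStep589 w H' z' 1 (pure305 (T' a) (φ₀ a) (Φc a)) := funext fun h => hup a h
    rw [h]
    exact hDT' _ w hwn H' z' hH' hz' _ (hB1 a) 1
  · -- the members downstairs are test functions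
    intro a
    have h : (fun h => (1 : ℂ) * pure305 (T a ∪ {v})
          (Function.update (extU503 (T a) (f₀ a)) v
            (locD311 v H z d (extU503 (T a) (f₀ a) v))) (Fc a) h)
        = dStep589 v H z d (fun h => (1 : ℂ) * pure305 (T a) (f₀ a) (Fc a) h) := by
      rw [hone a]
      funext h
      rw [one_mul]
      exact hdn a h
    rw [h]
    exact hDT _ v hvn H z hH hz _ (hB2 a) d
  · -- joint continuity upstairs
    have h : (fun p : Ω × G K' => pure305 (T' p.1 ∪ P)
          (Function.update (extU503 (T' p.1) (φ₀ p.1)) w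
            (locD311 w H' z' 1 (extU503 (T' p.1) (φ₀ p.1) w))) (Φc p.1) p.2)
        = fun p : Ω × G K' => dStep589 w H' z' 1 (pure305 (T' p.1) (φ₀ p.1) (Φc p.1)) p.2 :=
      funext fun p => hup p.1 p.2
    rw [h]
    exact hC' Ω (fun a => pure305 (T' a) (φ₀ a) (Φc a)) hC1 w H' z' 1
  · -- joint continuity downstairs
    have h : (fun p : Ω × G K => (1 : ℂ) * pure305 (T p.1 ∪ {v})
          (Function.update (extU503 (T p.1) (f₀ p.1)) v
            (locD311 v H z d (extU503 (T p.1) (f₀ p.1) v))) (Fc p.1) p.2)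
        = fun p : Ω × G K => dStep589 v H z d (pure305 (T p.1) (f₀ p.1) (Fc p.1)) p.2 :=
      funext fun p => by
        rw [one_mul]
        exact hdn p.1 p.2
    rw [h]
    exact hC Ω (fun a => pure305 (T a) (f₀ a) (Fc a)) hC2' v H z d
  · -- common compact support upstairs
    obtain ⟨C₁, hC₁, hs⟩ := hS' Ω (fun a => pure305 (T' a) (φ₀ a) (Φc a)) C' hC'c hD1 w H' z' 1
    refine ⟨C₁, hC₁, fun a h hne => hs a h ?_⟩
    rw [hup a h] at hne
    exact hne
  · -- common compact support downstairs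
    obtain ⟨C₁, hC₁, hs⟩ := hS Ω (fun a => pure305 (T a) (f₀ a) (Fc a)) C hCc hD2 v H z d
    refine ⟨C₁, hC₁, fun a h hne => hs a h ?_⟩
    rw [hdn a h] at hne
    exact hne
  · -- the integral upstairs
    intro h
    rw [hI' Ω ν (fun a => pure305 (T' a) (φ₀ a) (Φc a)) hC1 φ hE1 w H' z' 1 h]
    exact integral_congr_ae (Filter.Eventually.of_forall fun a => (hup a h).symm)
  · -- the integral downstairs
    intro h
    rw [hI Ω ν (fun a => pure305 (T a) (f₀ a) (Fc a)) hC2' f hE2' v H z d h]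
    refine integral_congr_ae (Filter.Eventually.of_forall fun a => ?_)
    show _ = (1 : ℂ) * _
    rw [one_mul]
    exact (hdn a h).symm

end Avg

/-! ## 3. The node -/

section Top

variable (K K' : Type) [Field K] [NumberField K] [Field K'] [NumberField K'] [Algebra K K']

/-- **THE NODE `ST589.ShapeTC589` FROM THE LEAVES**, VERBATIM. -/
theorem shapeTC_of311 (hPu' : PureDC311 K') (hPu : PureDC311 K) (hSD' : SphDC311 K')
    (hSD : SphDC311 K) (hC' : DContC311 K') (hC : DContC311 K) (hS' : DSuppC311 K')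
    (hS : DSuppC311 K) (hI' : DIntC311 K') (hI : DIntC311 K) (hPl : PlacesC503 K K')
    (hUn : UnitSphC503) : ShapeTC589 K K' := by
  intro hDT' hDT ℓ hcyc _ _ Φ B hB hRam 𝔫 hlev μc _ T₀ n n₀ m hexp w hwS v d hres
    H' z' H z hH' hz' hH hz φ f hgood
  obtain ⟨vP, fr, P, hresP, huniqv, hP, hunr⟩ := hPl ℓ hcyc w
  have hvw : PlaceOver K K' v w := hres.1
  have hvv : v = vP := huniqv v hvw
  rw [← hvv] at hresP hP hunr
  have hdfr : d = fr := by
    have h2 := H557.two_le_absNorm_557 v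
    have e : Ideal.absNorm v.asIdeal ^ d = Ideal.absNorm v.asIdeal ^ fr := by
      rw [← hres.2, ← hresP.2]
    exact Nat.pow_right_injective h2 e
  rw [← hdfr] at hunr
  obtain ⟨hinert, hsplit⟩ := hunr (hRam v w hvw hwS)
  have hvn : ¬ v.asIdeal ∣ 𝔫 := not_dvd_level503 hlev hvw hwS
  have hwn : ¬ w.asIdeal ∣ upI (K' := K') 𝔫 := fun h => hwS ((hlev.mem_S'_g w).2 h)
  have hv0 : v ∉ T₀ := fun h => hvn ((hexp.mem_T₀ v).1 h)
  have hdeg : B.l = ℓ := hB.deg
  have hinert' : (∀ w' : HeightOneSpectrum (𝓞 K'), PlaceOver K K' v w' → w' = w) → d = B.l :=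
    fun h => (hinert h).trans hdeg.symm
  have hsplit' : ∀ u : ℕ → HeightOneSpectrum (𝓞 K'), (∀ j : ℕ, PlaceOver K K' v (u j)) →
      (∀ j j' : ℕ, j < B.l → j' < B.l → u j = u j' → j = j') →
      d = 1 ∧ ∃ j : ℕ, j < B.l ∧ u j = w := by
    rw [hdeg]
    exact hsplit
  exact shape_newT311 hPu' hPu hSD' hSD hC' hC hS' hS hI' hI hUn hDT' hDT B 𝔫 μc hgood.shape
    P hP hv0 hres hinert' hsplit' hvn hwn hH' hz' hH hz

/-- **`SphDC311` from the leaves `SphTC311` and `SphRecC311`.** -/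
theorem sphDC_of311 (F : Type) [Field F] [NumberField F] (hT : SphTC311 F)
    (hR : SphRecC311 F) (hSh : SphShiftC503) : SphDC311 F :=
  hR hT hSh

end Top

end Fermat.Agent.LT.T7.H311

end
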