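import Mathlib
import Fermat.Agent.LT.T7.H311.ShapeTTop
import Fermat.Agent.LT.T7.H90.DStep311
import Fermat.Agent.LT.T7.H90.SphRec311
import Fermat.Agent.LT.T7.H528.SphT311
import Fermat.Agent.LT.T7.H963.Places
import Fermat.Agent.LT.T7.B981.H619.SphShift

/-!
# Row LT, tower T7, node T7.L2.1.H2a.A.1.7 `ST589.ShapeTC589` (sub-architect helper311):
# INTEGRATION

OFF-MAIN.  Complete proofs, nothing assumed.

    sphDC_closed311 (F)       : SphDC311 F                                   (UNCONDITIONAL)
    shapeTC_of_pure311 (K K') : PureDC311 K' → PureDC311 K → ST589.ShapeTC589 K K'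

Plugged, byte-identical copies: `sphTC528` (helper528, leaf ShT.2), `sphRecC311_h90`,
`dContC311_h90`, `dSuppC311_h90`, `dIntC311_h90` (helper90, leaves ShT.3' - ShT.6),
`placesC963` (helper963), `sphShiftC619`, `unitSphC619` (helper619).
OPEN: the leaf ShT.1 `PureDC311` (both fields).
-/

set_option autoImplicit false

open AutomorphicForm IsDedekindDomain NumberField

noncomputable section

namespace Fermat.Agent.LT.T7.H311

open Fermat.Agent.LT.T7 Fermat.Agent.LT.T7.B981 Fermat.Agent.LT.T7.ST589

/-- **LEAF ShT.3 = SPH-D**, unconditional. -/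
theorem sphDC_closed311 (F : Type) [Field F] [NumberField F] : SphDC311 F :=
  H90D.sphRecC311_h90 F (H528T.sphTC528 F) B981.H619.sphShiftC619

/-- **THE NODE `ST589.ShapeTC589`** from the leaf `PureDC311` alone. -/
theorem shapeTC_of_pure311 (K K' : Type) [Field K] [NumberField K] [Field K'] [NumberField K']
    [Algebra K K'] (hPu' : PureDC311 K') (hPu : PureDC311 K) : ShapeTC589 K K' :=
  shapeTC_of311 K K' hPu' hPu (sphDC_closed311 K') (sphDC_closed311 K)
    (H90D.dContC311_h90 K') (H90D.dContC311_h90 K) (H90D.dSuppC311_h90 K')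
    (H90D.dSuppC311_h90 K) (H90D.dIntC311_h90 K') (H90D.dIntC311_h90 K)
    (H963.placesC963 (K := K) (K' := K')) B981.H619.unitSphC619

end Fermat.Agent.LT.T7.H311

end
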