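import Mathlib
import Fermat.Agent.LT.T7.H311.ShapeTClosed
import Fermat.Agent.LT.T7.H595.PureD

/-!
# Row LT, tower T7, node T7.L2.1.H2a.A.1.7 `ST589.ShapeTC589` (sub-architect helper311):
# THE NODE CLOSED, UNCONDITIONAL

OFF-MAIN.  Complete proof, nothing assumed.

    shapeTC311 (K K') : ST589.ShapeTC589 K K'                      (VERBATIM, UNCONDITIONAL)

= `shapeTC_of_pure311` (`ShapeTClosed.lean`) + the leaf ShT.1 `pureDC595` (helper595,
byte-identical copy).
-/

set_option autoImplicit false

open AutomorphicForm IsDedekindDomain NumberField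

noncomputable section

namespace Fermat.Agent.LT.T7.H311

open Fermat.Agent.LT.T7 Fermat.Agent.LT.T7.ST589

/-- **THE NODE `ST589.ShapeTC589`**, VERBATIM, unconditional. -/
theorem shapeTC311 (K K' : Type) [Field K] [NumberField K] [Field K'] [NumberField K']
    [Algebra K K'] : ShapeTC589 K K' :=
  shapeTC_of_pure311 K K' (H595.pureDC595 K') (H595.pureDC595 K)

end Fermat.Agent.LT.T7.H311

end
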