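import Mathlib
import Fermat.Agent.LT.T7.H311.ShapeTDone
import Fermat.Agent.LT.T7.H589.StepTTop
import Fermat.Agent.LT.T7.H861.PlaceT
import Fermat.Agent.LT.T7.H805.SysC
import Fermat.Agent.LT.T7.H32.StepTTest
import Fermat.Agent.LT.T7.H32.StepTEk
import Fermat.Agent.LT.T7.H176.ST.DOp

/-!
# Row LT, tower T7, node T7.L2.1.H2a.A.1 `B981.StepTC981` (cut of helper589): THE NODE CLOSED,
# UNCONDITIONAL (integration by helper311, spare of the owner)

OFF-MAIN.  Complete proof, nothing assumed.

    stepTC311 (K K') : B981.StepTC981 K K' H893.LocA893            (VERBATIM, UNCONDITIONAL)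

= `stepTC_of589` (helper589 `StepTTop.lean`) applied to the closed leaves `placeC861`
(helper861), `sysC805` (helper805), `dTestC32`, `dEkC32`, `dSuppC32` (helper32), `dOpC176`
(helper176) and to the closed node `shapeTC311` (`ShapeTDone.lean`); byte-identical copies.
-/

set_option autoImplicit false

open AutomorphicForm IsDedekindDomain NumberField

noncomputable section

namespace Fermat.Agent.LT.T7.H311

open Fermat.Agent.LT.T7 Fermat.Agent.LT.T7.ST589

/-- **THE NODE `B981.StepTC981`** for the shape of record `H893.LocA893`, VERBATIM,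
unconditional. -/
theorem stepTC311 (K K' : Type) [Field K] [NumberField K] [Field K'] [NumberField K']
    [Algebra K K'] : B981.StepTC981 K K' H893.LocA893 :=
  stepTC_of589 (K := K) (K' := K') (H861.placeC861 (K := K) (K' := K'))
    (H805.sysC805 K') (H805.sysC805 K)
    (H32.dTestC32 (F := K')) (H32.dTestC32 (F := K))
    (H32.dEkC32 (F := K')) (H32.dEkC32 (F := K))
    (H32.dSuppC32 (F := K')) (H32.dSuppC32 (F := K))
    (H176.dOpC176 K') (H176.dOpC176 K) (shapeTC311 K K')

end Fermat.Agent.LT.T7.H311

end
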