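import Fermat.Agent.LT.T7.H893.SupplyFamSpec
import Fermat.Agent.LT.T7.H340.IwKit
import Fermat.Agent.LT.T7.H32.EKProd

/-!
# Row LT, tower T7, leaf T7.L2.1.F2 `EkProdDownC` (helper311, registry row 2250): tools

OFF-MAIN.  Left translates of Eisenstein-killing test functions by elements which are trivial at
infinity; finite sums; the Iwahori sum `iwL w H` preserves the left invariance under `U(𝔫)` and
under the Iwahori subgroup at `w` (`w ∣ 𝔫`).
Vocabulary: `T7/H893/SupplyFamSpec.lean` (helper893), kits of helper340 / helper129 / helper32,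
byte-identical copies.
-/

set_option autoImplicit false
set_option linter.unusedSectionVars false
set_option linter.unusedVariables false

open IsDedekindDomain NumberField MeasureTheory IsDedekindDomain.HeightOneSpectrum
open scoped ComplexConjugate
open Fermat.Agent.LT.H556 Fermat.Agent.LT.H556.A0 Fermat.Agent.LT.H129

noncomputable section

namespace Fermat.Agent.LT.T7.H311

open Fermat.Agent.LT Fermat.Agent.LT.T7 Fermat.Agent.LT.T7.H893 Fermat.Agent.LT.T7.H340

attribute [local instance] Fermat.Agent.LT.T5.instMeasurableSpaceG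

variable {K : Type} [Field K] [NumberField K]

/-! ## 1. Commutation -/

/-- An element which is trivial at infinity commutes with an element which is trivial at the
finite places. -/
theorem commute_fin_inf311 {b r : G K} (hb : ∀ w : InfinitePlace K, TrivAtInf w b)
    (hr : ∀ v : HeightOneSpectrum (𝓞 K), TrivAtFin v r) : b * r = r * b := by
  apply G_ext129
  · intro w
    rw [map_mul, map_mul, (trivAtInf_iff129 w b).1 (hb w), one_mul, mul_one]
  · intro v
    rw [map_mul, map_mul, (trivAtFin_iff129 v r).1 (hr v), one_mul, mul_one]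

/-- A scalar uniformiser is central. -/
theorem central_scalar311 {w : HeightOneSpectrum (𝓞 K)} {z : G K}
    (hz : IsScalarUniformizerAt w z) (g : G K) : z * g = g * z := by
  obtain ⟨hzloc, c, -, hzc⟩ := hz
  rw [isLocalAtFin_iff129] at hzloc
  apply G_ext129
  · intro u
    rw [map_mul, map_mul, hzloc.1 u, one_mul, mul_one]
  · intro v
    by_cases hv : v = w
    · subst hv
      apply Units.ext
      rw [map_mul, map_mul, Matrix.GeneralLinearGroup.coe_mul,
        Matrix.GeneralLinearGroup.coe_mul, coe_finCompHom129, coe_finCompHom129, hzc]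
      ext i j
      rw [Matrix.diagonal_mul, Matrix.mul_diagonal, mul_comm]
    · rw [map_mul, map_mul, hzloc.2 v hv, one_mul, mul_one]

theorem trivAtInf_inv311 {b : G K} (hb : ∀ w : InfinitePlace K, TrivAtInf w b) :
    ∀ w : InfinitePlace K, TrivAtInf w b⁻¹ := by
  intro w
  rw [trivAtInf_iff129, map_inv, (trivAtInf_iff129 w b).1 (hb w), inv_one]

theorem trivAtInf_zpow311 {b : G K} (hb : ∀ w : InfinitePlace K, TrivAtInf w b) (k : ℤ) :
    ∀ w : InfinitePlace K, TrivAtInf w (b ^ k) := by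
  intro w
  rw [trivAtInf_iff129, map_zpow, (trivAtInf_iff129 w b).1 (hb w), one_zpow]

/-! ## 2. The measure -/

theorem borelSpace311 : BorelSpace (G K) := ⟨rfl⟩

theorem isMulRightInvariant311 {μ : Measure (G K)} {F : Set (G K)} (hF : T5.IsFrame μ F) :
    μ.IsMulRightInvariant := by
  have : BorelSpace (G K) := borelSpace311
  refine ⟨fun g => ?_⟩
  ext A hA
  rw [Measure.map_apply (continuous_mul_const g).measurable hA]
  exact hF.right_inv g A hA

/-! ## 3. Eisenstein-killing: translates, sums -/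

theorem isEK_ltr311 {μ : Measure (G K)} (hμ : μ.IsHaarMeasure) {φ : G K → ℂ}
    (h : T5.IsEK μ φ) (b : G K) : T5.IsEK μ (ltr b φ) := by
  have : BorelSpace (G K) := borelSpace311
  intro Ψ hΨ x
  have h0 := h Ψ hΨ (x * b)
  unfold T5.Rconv at h0 ⊢
  rw [← h0]
  have h1 := integral_mul_left_eq_self (μ := μ) (fun y => φ y * Ψ (x * b * y)) b⁻¹
  rw [← h1]
  congr 1
  funext y
  simp only [ltr, mul_assoc, mul_inv_cancel_left]

theorem borelInv_rtr311 {Ψ : G K → ℂ} (hΨ : T5.IsBorelInvariantFn Ψ) {b : G K}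
    (hb : ∀ w : InfinitePlace K, TrivAtInf w b) :
    T5.IsBorelInvariantFn (fun g => Ψ (g * b)) := by
  refine ⟨hΨ.cont.comp (continuous_mul_const b), ?_, ?_, ?_⟩
  · intro n x hn g
    simp only [mul_assoc]
    exact hΨ.unip n x hn _
  · intro t a c ht g
    simp only [mul_assoc]
    exact hΨ.torus t a c ht _
  · obtain ⟨r, hr, hΨr⟩ := hΨ.ray
    refine ⟨r, hr, fun g => ?_⟩
    have hc : b * r = r * b := commute_fin_inf311 hb hr.1
    show Ψ (g * r * b) = Ψ (g * b)
    rw [mul_assoc, ← hc, ← mul_assoc, hΨr]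

theorem adjointFn_ltr311 (φ : G K → ℂ) (b : G K) :
    T5.adjointFn (ltr b φ) = fun g => T5.adjointFn φ (g * b) := by
  funext g
  simp only [T5.adjointFn, ltr, mul_inv_rev]

theorem isEK_adj_ltr311 {μ : Measure (G K)} {F : Set (G K)} (hF : T5.IsFrame μ F)
    {φ : G K → ℂ} (h : T5.IsEK μ (T5.adjointFn φ)) {b : G K}
    (hb : ∀ w : InfinitePlace K, TrivAtInf w b) : T5.IsEK μ (T5.adjointFn (ltr b φ)) := by
  have : BorelSpace (G K) := borelSpace311
  have := isMulRightInvariant311 hF
  rw [adjointFn_ltr311]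
  intro Ψ hΨ x
  have h0 := h (fun g => Ψ (g * b⁻¹)) (borelInv_rtr311 hΨ (trivAtInf_inv311 hb)) x
  unfold T5.Rconv at h0 ⊢
  rw [← h0]
  have h1 := integral_mul_right_eq_self (μ := μ)
    (fun y => T5.adjointFn φ y * Ψ (x * y * b⁻¹)) b
  rw [← h1]
  congr 1
  funext y
  simp only [mul_assoc, mul_inv_cancel, mul_one]

theorem integrable_mul311 {μ : Measure (G K)} (hμ : μ.IsHaarMeasure) {φ Ψ : G K → ℂ}
    (hc : Continuous φ) (hs : HasCompactSupport φ) (hΨ : Continuous Ψ) (x : G K) :
    Integrable (fun y => φ y * Ψ (x * y)) μ := by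
  have : BorelSpace (G K) := borelSpace311
  have hcont : Continuous fun y => φ y * Ψ (x * y) :=
    hc.mul (hΨ.comp (continuous_const_mul x))
  exact hcont.integrable_of_hasCompactSupport hs.mul_right

theorem isEK_add311 {μ : Measure (G K)} (hμ : μ.IsHaarMeasure) {φ₁ φ₂ : G K → ℂ}
    (c₁ : Continuous φ₁) (s₁ : HasCompactSupport φ₁) (c₂ : Continuous φ₂)
    (s₂ : HasCompactSupport φ₂) (e₁ : T5.IsEK μ φ₁) (e₂ : T5.IsEK μ φ₂) :
    T5.IsEK μ (fun y => φ₁ y + φ₂ y) := by
  intro Ψ hΨ x
  have h1 := e₁ Ψ hΨ x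
  have h2 := e₂ Ψ hΨ x
  unfold T5.Rconv at h1 h2 ⊢
  simp only [add_mul]
  rw [integral_add (integrable_mul311 hμ c₁ s₁ hΨ.cont x)
    (integrable_mul311 hμ c₂ s₂ hΨ.cont x), h1, h2, add_zero]

theorem isEK_smul311 {μ : Measure (G K)} {φ : G K → ℂ} (c : ℂ) (e : T5.IsEK μ φ) :
    T5.IsEK μ (fun y => c * φ y) := by
  intro Ψ hΨ x
  have h1 := e Ψ hΨ x
  unfold T5.Rconv at h1 ⊢
  simp only [mul_assoc]
  rw [integral_const_mul, h1, mul_zero]

theorem isEK_zero311 {μ : Measure (G K)} : T5.IsEK μ (fun _ : G K => (0 : ℂ)) := by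
  intro Ψ hΨ x
  unfold T5.Rconv
  simp

/-! ## 4. The termwise properties -/

/-- Everything in `IsTestFn 𝔫 trivType` and the two Eisenstein-killing clauses, except the left
invariance under the level group. -/
structure IsPre311 (𝔫 : Ideal (𝓞 K)) (μ : Measure (G K)) (φ : G K → ℂ) : Prop where
  cont : Continuous φ
  supp : HasCompactSupport φ
  smooth : T5.IsSmoothAtInf φ
  level_right : ∀ u : G K, InLevelGroup 𝔫 u → ∀ g : G K, φ (g * u) = φ g
  arch_right : ∀ (w : InfinitePlace K) (k : G K), IsArchCompact w k →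
    ∀ g : G K, φ (g * k) = φ g
  arch_left : ∀ (w : InfinitePlace K) (k : G K), IsArchCompact w k →
    ∀ g : G K, φ (k * g) = φ g
  ek : T5.IsEK μ φ
  ek_adj : T5.IsEK μ (T5.adjointFn φ)

variable {𝔫 : Ideal (𝓞 K)} {μ : Measure (G K)} {F : Set (G K)}

theorem isPre_of_test311 {φ : G K → ℂ} (h : T5.IsTestFn 𝔫 T5.trivType φ)
    (e : T5.IsEK μ φ) (e' : T5.IsEK μ (T5.adjointFn φ)) : IsPre311 𝔫 μ φ where
  cont := h.cont
  supp := h.supp
  smooth := h.smooth
  level_right := h.inv.level_right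
  arch_right := fun w k hk g => by
    have := h.inv.arch_right w k hk g
    simpa [T5.trivType] using this
  arch_left := fun w k hk g => by
    have := h.inv.arch_left w k hk g
    simpa [T5.trivType] using this
  ek := e
  ek_adj := e'

theorem IsPre311.ltr (hF : T5.IsFrame μ F) {φ : G K → ℂ} (h : IsPre311 𝔫 μ φ) {b : G K}
    (hb : ∀ w : InfinitePlace K, TrivAtInf w b) : IsPre311 𝔫 μ (H893.ltr b φ) where
  cont := h.cont.comp (continuous_const_mul b⁻¹)
  supp := h.supp.comp_homeomorph (Homeomorph.mulLeft b⁻¹)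
  smooth := fun n fam h1 h2 g => by
    have := h.smooth n fam h1 h2 (b⁻¹ * g)
    simpa only [H893.ltr, mul_assoc] using this
  level_right := fun u hu g => by
    show φ (b⁻¹ * (g * u)) = φ (b⁻¹ * g)
    rw [← mul_assoc]
    exact h.level_right u hu _
  arch_right := fun w k hk g => by
    show φ (b⁻¹ * (g * k)) = φ (b⁻¹ * g)
    rw [← mul_assoc]
    exact h.arch_right w k hk _
  arch_left := fun w k hk g => by
    show φ (b⁻¹ * (k * g)) = φ (b⁻¹ * g)
    have hc : b⁻¹ * k = k * b⁻¹ := commute_fin_inf311 (trivAtInf_inv311 hb) hk.1.2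
    rw [← mul_assoc, hc, mul_assoc]
    exact h.arch_left w k hk _
  ek := isEK_ltr311 hF.haar h.ek b
  ek_adj := isEK_adj_ltr311 hF h.ek_adj hb

theorem adjointFn_add311 (φ₁ φ₂ : G K → ℂ) :
    T5.adjointFn (fun y => φ₁ y + φ₂ y)
      = fun y => T5.adjointFn φ₁ y + T5.adjointFn φ₂ y := by
  funext g
  simp only [T5.adjointFn, map_add]

theorem adjointFn_smul311 (c : ℂ) (φ : G K → ℂ) :
    T5.adjointFn (fun y => c * φ y) = fun y => conj c * T5.adjointFn φ y := by
  funext g
  simp only [T5.adjointFn, map_mul]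

theorem IsPre311.add (hF : T5.IsFrame μ F) {φ₁ φ₂ : G K → ℂ} (h₁ : IsPre311 𝔫 μ φ₁)
    (h₂ : IsPre311 𝔫 μ φ₂) : IsPre311 𝔫 μ (fun y => φ₁ y + φ₂ y) where
  cont := h₁.cont.add h₂.cont
  supp := h₁.supp.add h₂.supp
  smooth := fun n fam a1 a2 g => (h₁.smooth n fam a1 a2 g).add (h₂.smooth n fam a1 a2 g)
  level_right := fun u hu g => by
    show φ₁ (g * u) + φ₂ (g * u) = φ₁ g + φ₂ g
    rw [h₁.level_right u hu, h₂.level_right u hu]
  arch_right := fun w k hk g => by
    show φ₁ (g * k) + φ₂ (g * k) = φ₁ g + φ₂ g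
    rw [h₁.arch_right w k hk, h₂.arch_right w k hk]
  arch_left := fun w k hk g => by
    show φ₁ (k * g) + φ₂ (k * g) = φ₁ g + φ₂ g
    rw [h₁.arch_left w k hk, h₂.arch_left w k hk]
  ek := isEK_add311 hF.haar h₁.cont h₁.supp h₂.cont h₂.supp h₁.ek h₂.ek
  ek_adj := by
    rw [adjointFn_add311]
    exact isEK_add311 hF.haar (T5.H32.continuous_adjointFn32 h₁.cont)
      (T5.H32.hasCompactSupport_adjointFn32 h₁.supp) (T5.H32.continuous_adjointFn32 h₂.cont)
      (T5.H32.hasCompactSupport_adjointFn32 h₂.supp) h₁.ek_adj h₂.ek_adj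

theorem IsPre311.smul (c : ℂ) {φ : G K → ℂ} (h : IsPre311 𝔫 μ φ) :
    IsPre311 𝔫 μ (fun y => c * φ y) where
  cont := continuous_const.mul h.cont
  supp := h.supp.mul_left
  smooth := fun n fam a1 a2 g => contDiff_const.mul (h.smooth n fam a1 a2 g)
  level_right := fun u hu g => by
    show c * φ (g * u) = c * φ g
    rw [h.level_right u hu]
  arch_right := fun w k hk g => by
    show c * φ (g * k) = c * φ g
    rw [h.arch_right w k hk]
  arch_left := fun w k hk g => by
    show c * φ (k * g) = c * φ g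
    rw [h.arch_left w k hk]
  ek := isEK_smul311 c h.ek
  ek_adj := by
    rw [adjointFn_smul311]
    exact isEK_smul311 _ h.ek_adj

theorem isPre_zero311 : IsPre311 𝔫 μ (fun _ : G K => (0 : ℂ)) where
  cont := continuous_const
  supp := HasCompactSupport.zero
  smooth := fun n fam a1 a2 g => contDiff_const
  level_right := fun u hu g => rfl
  arch_right := fun w k hk g => rfl
  arch_left := fun w k hk g => rfl
  ek := isEK_zero311
  ek_adj := by
    have : T5.adjointFn (fun _ : G K => (0 : ℂ)) = fun _ => 0 := by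
      funext g
      simp [T5.adjointFn]
    rw [this]
    exact isEK_zero311

theorem isPre_sum311 (hF : T5.IsFrame μ F) {ι : Type} (s : Finset ι) (f : ι → G K → ℂ)
    (h : ∀ i ∈ s, IsPre311 𝔫 μ (f i)) : IsPre311 𝔫 μ (fun y => ∑ i ∈ s, f i y) := by
  classical
  induction s using Finset.induction_on with
  | empty =>
    simp only [Finset.sum_empty]
    exact isPre_zero311
  | insert a s ha ih =>
    have h1 : (fun y => ∑ i ∈ insert a s, f i y) = fun y => f a y + ∑ i ∈ s, f i y := by
      funext y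
      rw [Finset.sum_insert ha]
    rw [h1]
    exact (h a (Finset.mem_insert_self a s)).add hF
      (ih fun i hi => h i (Finset.mem_insert_of_mem hi))

theorem IsPre311.iwL (hF : T5.IsFrame μ F) {φ : G K → ℂ} (hφ : IsPre311 𝔫 μ φ)
    {w : HeightOneSpectrum (𝓞 K)} {H : Finset (G K)} (hH : IsIwCosetSystem w H) :
    IsPre311 𝔫 μ (H893.iwL w H φ) := by
  have h1 : H893.iwL w H φ
      = fun y => ((Real.sqrt (Ideal.absNorm w.asIdeal : ℝ) : ℝ) : ℂ)⁻¹
          * ∑ h ∈ H, H893.ltr h φ y := rfl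
  rw [h1]
  refine IsPre311.smul _ (isPre_sum311 hF H (fun h => H893.ltr h φ) fun h hh => ?_)
  exact hφ.ltr hF (hH.2.1 h hh).1.1

end Fermat.Agent.LT.T7.H311

end
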