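import Fermat.Agent.LT.T7.H311.EkProdInv
import Fermat.Agent.LT.T7.H872.ConvTest

/-!
# Row LT, tower T7, leaf T7.L2.1.F2 `EkProdDownC` VERBATIM (helper311, registry row 2250)

OFF-MAIN.  `ekProdDownC311 K K' : T7.H893.EkProdDownC K K'` (SupplyFamSpec of helper893),
UNCONDITIONAL: the members downstairs `F₁ X ⋆ regL u z H k m f₂` are products of two
Eisenstein-killing test functions with Eisenstein-killing adjoints.

* `F₁ X` : fields `dn1_test`, `dn1_ek` of `IsL2Pre`.
* `regL u z H k m f₂ = ltr (z ^ k) ((iwL u H)^[m] f₂)` : `isEKTest_regL311` (`EkProdInv.lean`):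
  left translates by elements which are trivial at infinity preserve continuity, compact
  support, smoothness at infinity, the right invariances, the left `K_∞`-invariance and the two
  Eisenstein-killing clauses (`EkProdTools.lean`); the Iwahori sum preserves the left invariance
  under `U(𝔫)` and the local Iwahori elements at `u` (`u ∣ 𝔫`; completeness of the coset systems:
  kit of helper340), `z` is central.
* the product is a test function: `isTestFn_conv872` (helper872); assembly `isEKProd_mk32`
  (helper32).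
-/

set_option autoImplicit false

open IsDedekindDomain NumberField MeasureTheory
open Fermat.Agent.LT.H556 Fermat.Agent.LT.H556.A0

noncomputable section

namespace Fermat.Agent.LT.T7.H311

open Fermat.Agent.LT Fermat.Agent.LT.T7 Fermat.Agent.LT.T7.H893

attribute [local instance] Fermat.Agent.LT.T5.instMeasurableSpaceG

/-- **T7.L2.1.F2 EKPROD-DOWN**, verbatim. -/
theorem ekProdDownC311 (K K' : Type) [Field K] [NumberField K] [Field K'] [NumberField K']
    [Algebra K K'] : H893.EkProdDownC K K' := by
  intro ℓ Φ B hB g hg E hE X k m hX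
  have hF : IsFrame5 B.R := hB.frame
  have hT : H32.ConvTestC32 E.𝔫 B.R.μ := fun a b ha hb =>
    H872.isTestFn_conv872 hF.frame.haar hE.level_ne ha hb
  have h1 : H32.IsEKTest32 E.𝔫 B.R.μ (E.F₁ X) :=
    ⟨hE.dn1_test X hX, (hE.dn1_ek X hX).1, (hE.dn1_ek X hX).2⟩
  have hpre : IsPre311 E.𝔫 B.R.μ E.f₂ := isPre_of_test311 hE.dn2_test hE.dn2_ek.1 hE.dn2_ek.2
  have hL : IsLInv311 E.𝔫 B.u E.f₂ :=
    ⟨fun x hx y => (hE.dn2_inv.1 x hx y).1,
      fun h hl hI y => (hE.dn2_inv.2 h hl.1 (fun v hv => hl.2 v (hv 0 Nat.zero_lt_one))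
        (fun _ _ => hI) y).1⟩
  have h2 := isEKTest_regL311 hF.frame hpre hL hE.u_level hE.sys hE.unif k m
  exact H32.isEKProd_mk32 hT h1 h2

end Fermat.Agent.LT.T7.H311

end
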