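import Fermat.Agent.LT.T7.H311.EkProdTools
import Fermat.Agent.LT.T2.H724.IdealCl

/-!
# Row LT, tower T7, leaf T7.L2.1.F2 `EkProdDownC` (helper311, registry row 2250): left invariance

OFF-MAIN.  The Iwahori sum `iwL w H` and the central shift `ltr (z ^ k)` preserve the left
invariance under `U(𝔫)` and under the local Iwahori elements at `w`, for `w ∣ 𝔫`.
-/

set_option autoImplicit false
set_option linter.unusedSectionVars false
set_option linter.unusedVariables false

open IsDedekindDomain NumberField MeasureTheory IsDedekindDomain.HeightOneSpectrum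
open scoped ComplexConjugate
open Fermat.Agent.LT.H556 Fermat.Agent.LT.H556.A0 Fermat.Agent.LT.H129

noncomputable section

namespace Fermat.Agent.LT.T7.H311

open Fermat.Agent.LT Fermat.Agent.LT.T7 Fermat.Agent.LT.T7.H893 Fermat.Agent.LT.T7.H340

attribute [local instance] Fermat.Agent.LT.T5.instMeasurableSpaceG

variable {K : Type} [Field K] [NumberField K]

/-! ## 1. The level group at a place dividing the level -/

theorem isClosed_lt_one311 (w : HeightOneSpectrum (𝓞 K)) :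
    IsClosed {a : w.adicCompletion K | Valued.v a < 1} := by
  obtain ⟨π, hπ⟩ := exists_unif129 w
  have hπ0 : π ≠ 0 := unif_ne_zero129 w hπ
  have hcl : IsClosed ((w.adicCompletionIntegers K : Set (w.adicCompletion K))) :=
    Valued.isClosed_valuationSubring _
  have heq : {a : w.adicCompletion K | Valued.v a < 1}
      = (fun a => a * π⁻¹) ⁻¹' (w.adicCompletionIntegers K : Set (w.adicCompletion K)) := by
    ext a
    simp only [Set.mem_ofPred_eq, Set.mem_preimage, SetLike.mem_coe,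
      mem_adicCompletionIntegers, map_mul, map_inv₀, hπ]
    rw [mul_inv_le_iff₀ WithZero.exp_pos, one_mul]
    exact T1.H724.lt_one_iff724 _
  rw [heq]
  exact hcl.preimage (continuous_mul_const _)

theorem val_lt_one_of_mem311 {w : HeightOneSpectrum (𝓞 K)} {𝔫 : Ideal (𝓞 K)}
    (hw : w.asIdeal ∣ 𝔫) {a : w.adicCompletion K} (ha : a ∈ idealClosure 𝔫 w) :
    Valued.v a < 1 := by
  have hsub : (fun x : 𝓞 K => algebraMap K (w.adicCompletion K) (algebraMap (𝓞 K) K x)) ''
      (𝔫 : Set (𝓞 K)) ⊆ {a : w.adicCompletion K | Valued.v a < 1} := by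
    rintro _ ⟨r, hr, rfl⟩
    have hr' : r ∈ w.asIdeal := Ideal.le_of_dvd hw hr
    have := (T1.H724.val_int_lt_one_iff724 w r).2 hr'
    rwa [IsScalarTower.algebraMap_apply (𝓞 K) K (w.adicCompletion K)] at this
  exact closure_minimal hsub (isClosed_lt_one311 w) ha

theorem val_le_one_of_sub_one311 {w : HeightOneSpectrum (𝓞 K)}
    {M : Matrix (Fin 2) (Fin 2) (w.adicCompletion K)}
    (h : ∀ i j, Valued.v ((M - 1) i j) < 1) (i j : Fin 2) : Valued.v (M i j) ≤ 1 := by
  have e : M i j = (M - 1) i j + (1 : Matrix (Fin 2) (Fin 2) (w.adicCompletion K)) i j := by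
    simp
  rw [e]
  refine le_trans (Valuation.map_add _ _ _) (max_le (h i j).le ?_)
  by_cases hij : i = j
  · subst hij
    simp
  · rw [Matrix.one_apply_ne hij, map_zero]
    exact zero_le

/-- An element of the level group is in the Iwahori subgroup at the places dividing the level. -/
theorem inIwahori_of_level311 {w : HeightOneSpectrum (𝓞 K)} {𝔫 : Ideal (𝓞 K)}
    (hw : w.asIdeal ∣ 𝔫) {x : G K} (hx : InLevelGroup 𝔫 x) : T5.InIwahori w x := by
  have h1 : ∀ i j, Valued.v ((finComp w x - 1) i j) < 1 :=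
    fun i j => val_lt_one_of_mem311 hw (hx.2 w i j).1
  have h2 : ∀ i j, Valued.v ((finComp w x⁻¹ - 1) i j) < 1 :=
    fun i j => val_lt_one_of_mem311 hw (hx.2 w i j).2
  refine ⟨fun i j => ?_, fun i j => ?_, ?_⟩
  · exact (mem_adicCompletionIntegers (𝓞 K) K w).2 (val_le_one_of_sub_one311 h1 i j)
  · exact (mem_adicCompletionIntegers (𝓞 K) K w).2 (val_le_one_of_sub_one311 h2 i j)
  · have := h1 1 0
    simpa using this

/-- The splitting of an element of the level group at a place dividing the level. -/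
theorem exists_split311 {w : HeightOneSpectrum (𝓞 K)} {𝔫 : Ideal (𝓞 K)}
    (hw : w.asIdeal ∣ 𝔫) {x : G K} (hx : InLevelGroup 𝔫 x) :
    ∃ x₁ x₂ : G K, x = x₁ * x₂ ∧ IsLocalAtFin w x₁ ∧ T5.InIwahori w x₁ ∧
      InLevelGroup 𝔫 x₂ ∧ finCompHom129 w x₂ = 1 := by
  have hloc : IsLocalAtFin w (locFin129 w (finCompHom129 w x)) := isLocalAtFin_locFin129 w _
  have hloc' := (isLocalAtFin_iff129 w _).1 hloc
  have hc2 : finCompHom129 w ((locFin129 w (finCompHom129 w x))⁻¹ * x) = 1 := by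
    rw [map_mul, map_inv, finCompHom129_locFin129, inv_mul_cancel]
  refine ⟨locFin129 w (finCompHom129 w x), (locFin129 w (finCompHom129 w x))⁻¹ * x,
    by group, hloc, ?_, ?_, hc2⟩
  · rw [inIwahori_iff340, finCompHom129_locFin129, ← inIwahori_iff340]
    exact inIwahori_of_level311 hw hx
  · refine ⟨fun u => ?_, fun v i j => ?_⟩
    · rw [trivAtInf_iff129, map_mul, map_inv, hloc'.1 u, inv_one, one_mul]
      exact (trivAtInf_iff129 u x).1 (hx.1 u)
    · by_cases hv : v = w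
      · subst hv
        have e1 : finComp v ((locFin129 v (finCompHom129 v x))⁻¹ * x) = 1 := by
          rw [← coe_finCompHom129, hc2]
          rfl
        have e2 : finComp v ((locFin129 v (finCompHom129 v x))⁻¹ * x)⁻¹ = 1 := by
          rw [← coe_finCompHom129, map_inv, hc2, inv_one]
          rfl
        rw [e1, e2, sub_self]
        exact ⟨T2.H724.zero_mem_idealClosure724 v 𝔫, T2.H724.zero_mem_idealClosure724 v 𝔫⟩
      · have e0 : finCompHom129 v ((locFin129 w (finCompHom129 w x))⁻¹ * x)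
            = finCompHom129 v x := by
          rw [map_mul, map_inv, hloc'.2 v hv, inv_one, one_mul]
        have e1 : finComp v ((locFin129 w (finCompHom129 w x))⁻¹ * x) = finComp v x := by
          rw [← coe_finCompHom129, e0]
          rfl
        have e2 : finComp v ((locFin129 w (finCompHom129 w x))⁻¹ * x)⁻¹ = finComp v x⁻¹ := by
          rw [← coe_finCompHom129, map_inv, e0, ← map_inv]
          rfl
        rw [e1, e2]
        exact hx.2 v i j

/-! ## 2. Left invariance -/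

/-- Left invariance under `U(𝔫)` and under the local Iwahori elements at `w`. -/
structure IsLInv311 (𝔫 : Ideal (𝓞 K)) (w : HeightOneSpectrum (𝓞 K)) (φ : G K → ℂ) : Prop where
  level : ∀ x : G K, InLevelGroup 𝔫 x → ∀ y : G K, φ (x * y) = φ y
  iw : ∀ h : G K, IsLocalAtFin w h → T5.InIwahori w h → ∀ y : G K, φ (h * y) = φ y

variable {𝔫 : Ideal (𝓞 K)} {w : HeightOneSpectrum (𝓞 K)}

/-- The Iwahori sum of left translates is invariant under the local Iwahori elements. -/
theorem sum_ltr_iw311 {φ : G K → ℂ} (hφ : IsLInv311 𝔫 w φ) {H : Finset (G K)}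
    (hH : IsIwCosetSystem w H) {h₀ : G K} (h₀l : IsLocalAtFin w h₀)
    (h₀I : T5.InIwahori w h₀) (y : G K) :
    ∑ h ∈ H, φ (h⁻¹ * (h₀ * y)) = ∑ h ∈ H, φ (h⁻¹ * y) := by
  classical
  have hk : IsLocalAtFin w h₀⁻¹ := isLocalAtFin_inv129 h₀l
  have hkI : T5.InIwahori w h₀⁻¹ := inIwahori_inv340 h₀I
  have hH' := isIwCosetSystem_translate340 hH hk hkI
  have hF : ∀ u : G K, IsLocalAtFin w u → T5.InIwahori w u →
      ∀ g : G K, (fun a : G K => φ (a⁻¹ * y)) (g * u) = (fun a : G K => φ (a⁻¹ * y)) g := by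
    intro u hu huI g
    show φ ((g * u)⁻¹ * y) = φ (g⁻¹ * y)
    rw [mul_inv_rev, mul_assoc]
    exact hφ.iw u⁻¹ (isLocalAtFin_inv129 hu) (inIwahori_inv340 huI) _
  have key := iwSum_indep340 hH' hH (fun a : G K => φ (a⁻¹ * y)) hF 1
  simp only [one_mul] at key
  rw [← key, Finset.sum_image (fun a _ b _ hab => mul_right_injective h₀⁻¹ hab)]
  refine Finset.sum_congr rfl fun h _ => ?_
  congr 1
  group

theorem IsLInv311.iwL {φ : G K → ℂ} (hφ : IsLInv311 𝔫 w φ) (hw : w.asIdeal ∣ 𝔫)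
    {H : Finset (G K)} (hH : IsIwCosetSystem w H) : IsLInv311 𝔫 w (H893.iwL w H φ) where
  level := fun x hx y => by
    obtain ⟨x₁, x₂, rfl, h1l, h1I, h2, h2c⟩ := exists_split311 hw hx
    show _ * ∑ h ∈ H, φ (h⁻¹ * (x₁ * x₂ * y)) = _ * ∑ h ∈ H, φ (h⁻¹ * y)
    congr 1
    have e1 : ∑ h ∈ H, φ (h⁻¹ * (x₁ * x₂ * y)) = ∑ h ∈ H, φ (h⁻¹ * (x₂ * y)) := by
      have := sum_ltr_iw311 hφ hH h1l h1I (x₂ * y)
      simpa only [mul_assoc] using this
    rw [e1]
    refine Finset.sum_congr rfl fun h hh => ?_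
    have hc : h⁻¹ * x₂ = x₂ * h⁻¹ :=
      commute_of_local340 (isLocalAtFin_inv129 (hH.2.1 h hh).1) h2c
    rw [← mul_assoc, hc, mul_assoc]
    exact hφ.level x₂ h2 _
  iw := fun h₀ h₀l h₀I y => by
    show _ * ∑ h ∈ H, φ (h⁻¹ * (h₀ * y)) = _ * ∑ h ∈ H, φ (h⁻¹ * y)
    rw [sum_ltr_iw311 hφ hH h₀l h₀I y]

theorem IsLInv311.iterate {φ : G K → ℂ} (hφ : IsLInv311 𝔫 w φ) (hw : w.asIdeal ∣ 𝔫)
    {H : Finset (G K)} (hH : IsIwCosetSystem w H) (m : ℕ) :
    IsLInv311 𝔫 w ((H893.iwL w H)^[m] φ) := by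
  induction m with
  | zero => exact hφ
  | succ n ih =>
    rw [Function.iterate_succ_apply']
    exact ih.iwL hw hH

theorem IsLInv311.ltr_central {φ : G K → ℂ} (hφ : IsLInv311 𝔫 w φ) {b : G K}
    (hb : ∀ g : G K, b * g = g * b) : IsLInv311 𝔫 w (H893.ltr b φ) where
  level := fun x hx y => by
    show φ (b⁻¹ * (x * y)) = φ (b⁻¹ * y)
    have hc : b⁻¹ * x = x * b⁻¹ := by
      have := hb x
      calc b⁻¹ * x = b⁻¹ * (x * b) * b⁻¹ := by group
        _ = b⁻¹ * (b * x) * b⁻¹ := by rw [this]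
        _ = x * b⁻¹ := by group
    rw [← mul_assoc, hc, mul_assoc]
    exact hφ.level x hx _
  iw := fun h hl hI y => by
    show φ (b⁻¹ * (h * y)) = φ (b⁻¹ * y)
    have hc : b⁻¹ * h = h * b⁻¹ := by
      have := hb h
      calc b⁻¹ * h = b⁻¹ * (h * b) * b⁻¹ := by group
        _ = b⁻¹ * (b * h) * b⁻¹ := by rw [this]
        _ = h * b⁻¹ := by group
    rw [← mul_assoc, hc, mul_assoc]
    exact hφ.iw h hl hI _

theorem IsPre311.iterate {μ : Measure (G K)} {F : Set (G K)} (hF : T5.IsFrame μ F)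
    {φ : G K → ℂ} (hφ : IsPre311 𝔫 μ φ) {H : Finset (G K)} (hH : IsIwCosetSystem w H)
    (m : ℕ) : IsPre311 𝔫 μ ((H893.iwL w H)^[m] φ) := by
  induction m with
  | zero => exact hφ
  | succ n ih =>
    rw [Function.iterate_succ_apply']
    exact ih.iwL hF hH

/-- **The regular member is an Eisenstein-killing test function.** -/
theorem isEKTest_regL311 {μ : Measure (G K)} {F : Set (G K)} (hF : T5.IsFrame μ F)
    {φ : G K → ℂ} (hφ : IsPre311 𝔫 μ φ) (hL : IsLInv311 𝔫 w φ) (hw : w.asIdeal ∣ 𝔫)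
    {H : Finset (G K)} (hH : IsIwCosetSystem w H) {z : G K}
    (hz : IsScalarUniformizerAt w z) (k : ℤ) (m : ℕ) :
    H32.IsEKTest32 𝔫 μ (H893.regL w z H k m φ) := by
  have hzc : ∀ g : G K, z ^ k * g = g * z ^ k := fun g =>
    ((show Commute z g from central_scalar311 hz g).zpow_left k).eq
  have hzinf : ∀ u : InfinitePlace K, TrivAtInf u (z ^ k) :=
    trivAtInf_zpow311 hz.1.1 k
  have h1 : IsPre311 𝔫 μ (H893.regL w z H k m φ) := (hφ.iterate hF hH m).ltr hF hzinf
  have h2 : IsLInv311 𝔫 w (H893.regL w z H k m φ) := (hL.iterate hw hH m).ltr_central hzc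
  refine ⟨⟨T5.isKType_triv, h1.cont, h1.supp, h1.smooth, ⟨h1.level_right, h2.level, ?_, ?_⟩⟩,
    h1.ek, h1.ek_adj⟩
  · intro u k' hk' g
    rw [h1.arch_right u k' hk' g]
    simp [T5.trivType]
  · intro u k' hk' g
    rw [h1.arch_left u k' hk' g]
    simp [T5.trivType]

end Fermat.Agent.LT.T7.H311

end
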