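import Fermat.Agent.LT.T7.H311.EkProdInv
import Fermat.Agent.LT.T7.H872.ConvTest

/-!
# Row LT, tower T7, leaf T7.L2.1.F1 `EkProdUpC` VERBATIM (helper311, SPARE)

OFF-MAIN.  `ekProdUpC311 K K' : T7.H893.EkProdUpC K K'` (SupplyFamSpec of helper893),
UNCONDITIONAL: the members upstairs `Φ₁ X ⋆ lsum Hg (regL (o 0) z' H' k m φ₂)` are products of
two Eisenstein-killing test functions with Eisenstein-killing adjoints.

Same tools as `EkProdDown.lean` (`isPre_sum311`, `IsLInv311.iterate`, `IsLInv311.ltr_central`)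
and the permutation of a double coset system `U(𝔑₀) g U(𝔑₀) / U(𝔑₀)` by left multiplication with
`U(𝔑₀)` (`sum_ltr_dbl311`); the level group is a group (`inLevelGroup_mul311`).
-/

set_option autoImplicit false
set_option linter.unusedSectionVars false
set_option linter.unusedVariables false

open IsDedekindDomain NumberField MeasureTheory IsDedekindDomain.HeightOneSpectrum
open Fermat.Agent.LT.H556 Fermat.Agent.LT.H556.A0 Fermat.Agent.LT.H129

noncomputable section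

namespace Fermat.Agent.LT.T7.H311

open Fermat.Agent.LT Fermat.Agent.LT.T7 Fermat.Agent.LT.T7.H893 Fermat.Agent.LT.T7.H340

attribute [local instance] Fermat.Agent.LT.T5.instMeasurableSpaceG

variable {K : Type} [Field K] [NumberField K]

/-! ## 1. The level group is a group -/

theorem inLevelGroup_inv311 {𝔫 : Ideal (𝓞 K)} {u : G K} (h : InLevelGroup 𝔫 u) :
    InLevelGroup 𝔫 u⁻¹ :=
  ⟨trivAtInf_inv311 h.1, fun v i j => ⟨(h.2 v i j).2, by rw [inv_inv]; exact (h.2 v i j).1⟩⟩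

theorem sub_one_mul311 {R : Type} [CommRing R] (A B : Matrix (Fin 2) (Fin 2) R) :
    A * B - 1 = (A - 1) * (B - 1) + (A - 1) + (B - 1) := by
  noncomm_ring

theorem mem_closure_mul_sub_one311 (v : HeightOneSpectrum (𝓞 K)) (𝔫 : Ideal (𝓞 K))
    {A B : Matrix (Fin 2) (Fin 2) (v.adicCompletion K)}
    (hA : ∀ i j, (A - 1) i j ∈ idealClosure 𝔫 v) (hB : ∀ i j, (B - 1) i j ∈ idealClosure 𝔫 v)
    (i j : Fin 2) : (A * B - 1) i j ∈ idealClosure 𝔫 v := by
  rw [sub_one_mul311, Matrix.add_apply, Matrix.add_apply, Matrix.mul_apply, Fin.sum_univ_two]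
  exact T2.H724.add_mem_idealClosure724 v 𝔫
    (T2.H724.add_mem_idealClosure724 v 𝔫
      (T2.H724.add_mem_idealClosure724 v 𝔫
        (T2.H724.mul_mem_idealClosure724 v 𝔫 (hA i 0) (hB 0 j))
        (T2.H724.mul_mem_idealClosure724 v 𝔫 (hA i 1) (hB 1 j)))
      (hA i j)) (hB i j)

theorem inLevelGroup_mul311 {𝔫 : Ideal (𝓞 K)} {u u' : G K} (h : InLevelGroup 𝔫 u)
    (h' : InLevelGroup 𝔫 u') : InLevelGroup 𝔫 (u * u') := by
  refine ⟨fun w => ?_, fun v i j => ⟨?_, ?_⟩⟩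
  · rw [trivAtInf_iff129, map_mul, (trivAtInf_iff129 w u).1 (h.1 w),
      (trivAtInf_iff129 w u').1 (h'.1 w), one_mul]
  · have e : finComp v (u * u') = finComp v u * finComp v u' := by
      rw [← coe_finCompHom129, map_mul]
      rfl
    rw [e]
    exact mem_closure_mul_sub_one311 v 𝔫 (fun i j => (h.2 v i j).1)
      (fun i j => (h'.2 v i j).1) i j
  · have e : finComp v (u * u')⁻¹ = finComp v u'⁻¹ * finComp v u⁻¹ := by
      rw [mul_inv_rev, ← coe_finCompHom129, map_mul]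
      rfl
    rw [e]
    exact mem_closure_mul_sub_one311 v 𝔫 (fun i j => (h'.2 v i j).2)
      (fun i j => (h.2 v i j).2) i j

theorem inLevelGroup_mono311 {𝔫 𝔫₀ : Ideal (𝓞 K)} (hle : 𝔫 ≤ 𝔫₀) {u : G K}
    (h : InLevelGroup 𝔫 u) : InLevelGroup 𝔫₀ u :=
  ⟨h.1, fun v i j => ⟨closure_mono (Set.image_mono hle) (h.2 v i j).1,
    closure_mono (Set.image_mono hle) (h.2 v i j).2⟩⟩

/-! ## 2. The double coset sum -/

/-- The sum of the left translates over a double coset system is left invariant under the level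
group. -/
theorem sum_ltr_dbl311 {𝔫₀ : Ideal (𝓞 K)} {g : G K} {Hg : Finset (G K)}
    (hH : IsDblCosetSystem 𝔫₀ g Hg) {ψ : G K → ℂ}
    (hψ : ∀ x : G K, InLevelGroup 𝔫₀ x → ∀ y : G K, ψ (x * y) = ψ y) {x : G K}
    (hx : InLevelGroup 𝔫₀ x) (y : G K) :
    ∑ h ∈ Hg, ψ (h⁻¹ * (x * y)) = ∑ h ∈ Hg, ψ (h⁻¹ * y) := by
  classical
  obtain ⟨hform, hne, hcov⟩ := hH
  have key : ∀ h ∈ Hg, ∃ h' ∈ Hg, InLevelGroup 𝔫₀ (h'⁻¹ * (x⁻¹ * h)) := by
    intro h hh
    obtain ⟨u₁, u₂, hu₁, hu₂, rfl⟩ := hform h hh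
    obtain ⟨h', hh', hin⟩ := hcov (x⁻¹ * u₁) (inLevelGroup_mul311 (inLevelGroup_inv311 hx) hu₁)
    refine ⟨h', hh', ?_⟩
    have e : h'⁻¹ * (x⁻¹ * (u₁ * g * u₂)) = (h'⁻¹ * (x⁻¹ * u₁ * g)) * u₂ := by group
    rw [e]
    exact inLevelGroup_mul311 hin hu₂
  choose! σ hσ using key
  have hinj : ∀ a ∈ Hg, ∀ b ∈ Hg, σ a = σ b → a = b := by
    intro a ha b hb hab
    by_contra hne'
    apply hne a ha b hb hne'
    have e : a⁻¹ * b = ((σ a)⁻¹ * (x⁻¹ * a))⁻¹ * ((σ b)⁻¹ * (x⁻¹ * b)) := by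
      rw [hab]
      group
    rw [e]
    exact inLevelGroup_mul311 (inLevelGroup_inv311 (hσ a ha).2) (hσ b hb).2
  have himg : Hg.image σ = Hg := by
    apply Finset.eq_of_subset_of_card_le
    · intro c hc
      obtain ⟨a, ha, rfl⟩ := Finset.mem_image.mp hc
      exact (hσ a ha).1
    · rw [Finset.card_image_of_injOn hinj]
  calc ∑ h ∈ Hg, ψ (h⁻¹ * (x * y)) = ∑ h ∈ Hg, ψ ((σ h)⁻¹ * y) := by
        refine Finset.sum_congr rfl fun h hh => ?_
        have e : h⁻¹ * (x * y) = ((σ h)⁻¹ * (x⁻¹ * h))⁻¹ * ((σ h)⁻¹ * y) := by group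
        rw [e]
        exact hψ _ (inLevelGroup_inv311 (hσ h hh).2) _
    _ = ∑ h' ∈ Hg.image σ, ψ (h'⁻¹ * y) := by
        rw [Finset.sum_image hinj]
    _ = ∑ h ∈ Hg, ψ (h⁻¹ * y) := by rw [himg]

theorem trivAtInf_mul311 {a b : G K} (ha : ∀ w : InfinitePlace K, TrivAtInf w a)
    (hb : ∀ w : InfinitePlace K, TrivAtInf w b) : ∀ w : InfinitePlace K, TrivAtInf w (a * b) := by
  intro w
  rw [trivAtInf_iff129, map_mul, (trivAtInf_iff129 w a).1 (ha w),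
    (trivAtInf_iff129 w b).1 (hb w), one_mul]

/-- **The second factor upstairs is an Eisenstein-killing test function.** -/
theorem isEKTest_lsum_regL311 {μ : Measure (G K)} {F : Set (G K)} (hF : T5.IsFrame μ F)
    {𝔑 𝔑₀ : Ideal (𝓞 K)} (hle : 𝔑 ≤ 𝔑₀) {w : HeightOneSpectrum (𝓞 K)}
    (hw0 : w.asIdeal ∣ 𝔑₀) {φ : G K → ℂ} (hφ : IsPre311 𝔑 μ φ) (hL : IsLInv311 𝔑₀ w φ)
    {H : Finset (G K)} (hH : IsIwCosetSystem w H) {z : G K}
    (hz : IsScalarUniformizerAt w z) {g : G K} (hg : ∀ u : InfinitePlace K, TrivAtInf u g)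
    {Hg : Finset (G K)} (hHg : IsDblCosetSystem 𝔑₀ g Hg) (k : ℤ) (m : ℕ) :
    H32.IsEKTest32 𝔑 μ (H893.lsum Hg (H893.regL w z H k m φ)) := by
  have hzc : ∀ a : G K, z ^ k * a = a * z ^ k := fun a =>
    ((show Commute z a from central_scalar311 hz a).zpow_left k).eq
  have hzinf : ∀ u : InfinitePlace K, TrivAtInf u (z ^ k) :=
    trivAtInf_zpow311 hz.1.1 k
  have h1 : IsPre311 𝔑 μ (H893.regL w z H k m φ) := (hφ.iterate hF hH m).ltr hF hzinf
  have h2 : IsLInv311 𝔑₀ w (H893.regL w z H k m φ) :=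
    (hL.iterate hw0 hH m).ltr_central hzc
  have hHinf : ∀ h ∈ Hg, ∀ u : InfinitePlace K, TrivAtInf u h := by
    intro h hh
    obtain ⟨u₁, u₂, hu₁, hu₂, rfl⟩ := hHg.1 h hh
    exact trivAtInf_mul311 (trivAtInf_mul311 hu₁.1 hg) hu₂.1
  have e : H893.lsum Hg (H893.regL w z H k m φ)
      = fun y => ∑ h ∈ Hg, H893.ltr h (H893.regL w z H k m φ) y := rfl
  have h3 : IsPre311 𝔑 μ (H893.lsum Hg (H893.regL w z H k m φ)) := by
    rw [e]
    exact isPre_sum311 hF Hg _ fun h hh => h1.ltr hF (hHinf h hh)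
  refine ⟨⟨T5.isKType_triv, h3.cont, h3.supp, h3.smooth, ⟨h3.level_right, ?_, ?_, ?_⟩⟩,
    h3.ek, h3.ek_adj⟩
  · intro x hx y
    exact sum_ltr_dbl311 hHg h2.level (inLevelGroup_mono311 hle hx) y
  · intro u k' hk' a
    rw [h3.arch_right u k' hk' a]
    simp [T5.trivType]
  · intro u k' hk' a
    rw [h3.arch_left u k' hk' a]
    simp [T5.trivType]

/-! ## 3. The leaf -/

/-- **T7.L2.1.F1 EKPROD-UP**, verbatim. -/
theorem ekProdUpC311 (K K' : Type) [Field K] [NumberField K] [Field K'] [NumberField K']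
    [Algebra K K'] : H893.EkProdUpC K K' := by
  intro ℓ Φ B hB g hg E hE X k m hX
  have hF : IsFrame5 B.R' := hB.frame'
  have hℓ : 0 < ℓ := hB.deg ▸ hB.cyc.pos
  have hne : upI (K' := K') E.𝔫 ≠ ⊥ := by
    intro h0
    have hle : B.𝔑₀ ≤ Φ.level := hB.level_le
    have hS : (B.o 0).asIdeal ∣ upI (K' := K') E.𝔫 := (hE.mem_S'_g (B.o 0)).1 (hB.orbit_level 0)
    apply hE.level_ne
    unfold upI at h0
    rwa [Ideal.map_eq_bot_iff_of_injective
      (FaithfulSMul.algebraMap_injective (𝓞 K) (𝓞 K'))] at h0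
  have hT : H32.ConvTestC32 (upI (K' := K') E.𝔫) B.R'.μ := fun a b ha hb =>
    H872.isTestFn_conv872 hF.frame.haar hne ha hb
  have h1 : H32.IsEKTest32 (upI (K' := K') E.𝔫) B.R'.μ (E.Φ₁ X) :=
    ⟨hE.up1_test X hX, (hE.up1_ek X hX).1, (hE.up1_ek X hX).2⟩
  have hpre : IsPre311 (upI (K' := K') E.𝔫) B.R'.μ E.φ₂ :=
    isPre_of_test311 hE.up2_test hE.up2_ek.1 hE.up2_ek.2
  have hw0 : (B.o 0).asIdeal ∣ B.𝔑₀ := (hB.mem_S' (B.o 0)).1 (hB.orbit_level 0)
  have hL : IsLInv311 B.𝔑₀ (B.o 0) E.φ₂ := by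
    refine ⟨fun x hx y => (hE.up2_inv.1 x hx y).1, fun h hl hI y => ?_⟩
    refine (hE.up2_inv.2 h hl.1 (fun v hv => hl.2 v (hv 0 hℓ)) (fun j _ => ?_) y).1
    by_cases hj : B.o j = B.o 0
    · rw [hj]
      exact hI
    · rw [inIwahori_iff340, (trivAtFin_iff129 _ _).1 (hl.2 (B.o j) hj)]
      exact isIwG340_one
  have h2 := isEKTest_lsum_regL311 hF.frame hE.level_g (hw0) hpre hL hE.sys' hE.unif' hg.1
    hE.sysg k m
  exact H32.isEKProd_mk32 hT h1 h2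

end Fermat.Agent.LT.T7.H311

end
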