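import Mathlib
import Fermat.Agent.LT.T7.H893.SupplyConstrSpec2
import Fermat.Agent.LT.T7.H340.FactUpSpec

/-!
# Row LT, tower T7, node C2 v2 `H893.GlobMatchC893` (helper311, SPARE sub-cut): RE-BASE of the
# matching chain of helper305 / helper340 onto `H893.LocHyp893` -- Spec

OFF-MAIN.  Definitions and frozen Props only (the proved tops are `Match893Top.lean`).  No hole,
nothing assumed.  ADDITIVE (new names only, suffix `311`).

## Why

The fifth cut v2 of helper893 (`SupplyConstrSpec2.lean`, 17:17Z) replaces `H305.LocHyp305` by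
`H893.LocHyp893` (the split clause for ONE enumeration: the all-rotations form is unsatisfiable at
the bad split places).  The node of record is `H893.GlobMatchC893`.  The chain of helper305
(`CutIntC305`, `UnitMatchC305`, `FactUpC305`) and of helper340 (`UpFactC340`, `LocEqSplitC340`)
is typed on `LocHyp305` and cannot be applied to data which satisfy `LocHyp893` only.

## The re-based chain (same proofs, same leaves wherever the statement does not mention the
## split clause)

    globMatch893_of311 : (first cut of helper305, UNCHANGED leaves) → CutIntC893_311 K K'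
                           → H893.GlobMatchC893 K K'                       (VERBATIM)
    cutIntC893_of311  : (second cut of helper305, UNCHANGED leaves) → UnitMatchC893_311 K K'
                           → FactUpC893_311 K K' → CutIntC893_311 K K'
    factUpC893_of311  : UpFactC893_311 K K' → H340.LocEqInertC340 K K' (UNCHANGED)
                           → LocEqSplitC311 K K' → H340.LocEqArchC340 K K' (UNCHANGED)
                           → FactUpC893_311 K K'

NEW statements (3): `UnitMatchC893_311` (= `UnitMatchC305` for `LocHyp893`), `UpFactC893_311`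
(= `UpFactC340` for `LocHyp893`; at a split place the value is the split integral for an
enumeration FOR WHICH THE CONVOLUTION IDENTITY HOLDS: `IsSplitValB311`; the proof takes the
enumeration of `LocHyp893.split`), `LocEqSplitC311` (= `LocEqSplitC340` in LOCAL form: the
convolution identity is part of `IsSplitValB311`, no global local hypothesis is needed).
The leaves `LocEqInertC340`, `LocEqArchC340` are used AS THEY ARE: `LocHyp893` gives `LocHyp305`
on the set of the places of `S` with ONE place over them (`locHyp305_of893_311`, the split clause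
is empty there).
-/

set_option autoImplicit false

open AutomorphicForm IsDedekindDomain NumberField MeasureTheory
open scoped ComplexConjugate

noncomputable section

namespace Fermat.Agent.LT.T7.H311

open Fermat.Agent.LT.H556 Fermat.Agent.LT.H556.A0 Fermat.Agent.LT.T7 Fermat.Agent.LT.T7.H305
open Fermat.Agent.LT.T7.H893 Fermat.Agent.LT.T7.H340

attribute [local instance] Fermat.Agent.LT.T5.instMeasurableSpaceG

section TwoFields

variable {K K' : Type} [Field K] [NumberField K] [Field K'] [NumberField K'] [Algebra K K']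

/-- `J` is THE LOCAL TWISTED INTEGRAL UPSTAIRS at the SPLIT place `v` (`H340.IsSplitVal340`) for
an enumeration of the places over `v` FOR WHICH the levels agree and the convolution identity
`f₀ v = φ₀ (w 0) * ⋯ * φ₀ (w (l-1))` holds (the enumeration of `H893.LocHyp893.split`). -/
def IsSplitValB311 (D : CompData K K')
    (n : HeightOneSpectrum (𝓞 K') → ℕ) (m : HeightOneSpectrum (𝓞 K) → ℕ)
    (φ₀ : ∀ w : HeightOneSpectrum (𝓞 K'), GL (Fin 2) (w.adicCompletion K') → ℂ)
    (f₀ : ∀ v : HeightOneSpectrum (𝓞 K), GL (Fin 2) (v.adicCompletion K) → ℂ)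
    (δ : GL (Fin 2) K') {γ : GL (Fin 2) K} (L : LocData305 K γ)
    (v : HeightOneSpectrum (𝓞 K)) (J : ℂ) : Prop :=
  ∃ (hl : 0 < D.l) (w : ℕ → HeightOneSpectrum (𝓞 K'))
    (i : ∀ j : ℕ, v.adicCompletion K ≃+* (w j).adicCompletion K'),
    (∀ j : ℕ, PlaceOver K K' v (w j)) ∧
    (∀ j : ℕ, T5.PlaceRel D.s (w (j + 1)) (w j)) ∧
    (∀ j : ℕ, 0 < j → j < D.l → w j ≠ w 0) ∧
    (∀ (j : ℕ) (x : K), i j (algebraMap K (v.adicCompletion K) x)
      = algebraMap K' ((w j).adicCompletion K') (algebraMap K K' x)) ∧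
    (∀ (j : ℕ) (x : v.adicCompletion K), Valued.v (i j x) = Valued.v x) ∧
    (∀ j : ℕ, n (w j) = m v) ∧
    T6.IsConvProd (T6.InU (m v)) D.l
      (fun j g => φ₀ (w j)
        (Matrix.GeneralLinearGroup.map ((i j : v.adicCompletion K ≃+* _) :
          v.adicCompletion K →+* (w j).adicCompletion K') g))
      (f₀ v) ∧
    J = splitInt340 D.l hl (L.μv v) (L.βv v)
        (fun j g => φ₀ (w j)
          (Matrix.GeneralLinearGroup.map ((i j : v.adicCompletion K ≃+* _) :
            v.adicCompletion K →+* (w j).adicCompletion K') g))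
        (fun j => Matrix.GeneralLinearGroup.map
          (((i j).symm : (w j).adicCompletion K' ≃+* _) :
            (w j).adicCompletion K' →+* v.adicCompletion K) (locG305 (w j) δ))

variable (K K')

/-- **NODE C2.7 v2 = CUT-INT for `LocHyp893`** (`H305.CutIntC305` with `H893.LocHyp893` in place
of `H305.LocHyp305`; nothing else is changed). -/
def CutIntC893_311 : Prop :=
  ∀ D : CompData K K', IsCompData D → IsCycExt K K' D.l → D.l ≠ 2 → TotCplx K →
    ∀ ι : Adl K →+* Adl K', IsAdeleBase305 D.s D.l ι →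
    ∀ μc : @Measure (GL (Fin 2) ℂ) (borel _), @Measure.IsHaarMeasure _ _ _ (borel _) μc →
    ∀ (T₀ : Finset (HeightOneSpectrum (𝓞 K))), UnramOut305 (K' := K') T₀ →
    ∀ (n : HeightOneSpectrum (𝓞 K') → ℕ) (m : HeightOneSpectrum (𝓞 K) → ℕ),
      IsLevelAt305 T₀ n m →
    ∃ κ : ℂ, κ ≠ 0 ∧
      ∀ (T : Finset (HeightOneSpectrum (𝓞 K))) (T' : Finset (HeightOneSpectrum (𝓞 K'))),
        T₀ ⊆ T → IsOver305 T T' →
      ∀ (φ₀ : ∀ w : HeightOneSpectrum (𝓞 K'), GL (Fin 2) (w.adicCompletion K') → ℂ)
        (Φ : InfinitePlace K' → GL (Fin 2) ℂ → ℂ)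
        (f₀ : ∀ v : HeightOneSpectrum (𝓞 K), GL (Fin 2) (v.adicCompletion K) → ℂ)
        (F : InfinitePlace K → GL (Fin 2) ℂ → ℂ),
        LocHyp893 D μc T n m φ₀ Φ f₀ F →
        (∀ (δ : GL (Fin 2) K') (γ : GL (Fin 2) K), T6.IsEll γ →
          D.s.normUpTo D.l δ = Matrix.GeneralLinearGroup.map (algebraMap K K') γ →
          ∀ (μT : @Measure (tA305 (T5.AdelicAut.id K) γ) (borel _))
            (μT' : @Measure (tA305 D.s δ) (borel _)),
            @Measure.IsHaarMeasure _ _ _ (borel _) μT →
            @Measure.IsHaarMeasure _ _ _ (borel _) μT' →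
            IsTorLinked305 ι D.s δ γ μT μT' →
            ∃ β' : G K' → ℝ, ∃ β : G K → ℝ,
              IsCutOn305 D.s δ μT' β'
                {x | T5.twTerm D.R'.r D.s (pure305 T' φ₀ Φ) δ x ≠ 0} ∧
              IsCutOn305 (T5.AdelicAut.id K) γ μT β
                {x | T5.twTerm D.R.r (T5.AdelicAut.id K) (pure305 T f₀ F) γ x ≠ 0} ∧
              cutInt305 D.R'.r D.s (pure305 T' φ₀ Φ) δ D.R'.μ β'
                = κ * cutInt305 D.R.r (T5.AdelicAut.id K) (pure305 T f₀ F) γ D.R.μ β) ∧
        ∀ γ : GL (Fin 2) K, T6.IsEll γ → (¬ ∃ δ : GL (Fin 2) K', IsNormOf D δ γ) →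
          ∀ μT : @Measure (tA305 (T5.AdelicAut.id K) γ) (borel _),
            @Measure.IsHaarMeasure _ _ _ (borel _) μT →
            ∃ β : G K → ℝ,
              IsCutOn305 (T5.AdelicAut.id K) γ μT β
                {x | T5.twTerm D.R.r (T5.AdelicAut.id K) (pure305 T f₀ F) γ x ≠ 0} ∧
              cutInt305 D.R.r (T5.AdelicAut.id K) (pure305 T f₀ F) γ D.R.μ β = 0

/-- **LEAF C2.7.11 v2 = UNIT-MATCH for `LocHyp893`** (`H305.UnitMatchC305` with `LocHyp893`).
If `T₀ ⊆ T ⊆ S`, the places outside `T₀` are unramified and the levels are `0` there: the local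
hypotheses for `T` give the local hypotheses for `S` with unit components at the new places.
Proof.  As `UnitMatchC305` at the places of `T` and at the new places with ONE place over them.
At a new place `v` with two places over it (`v` splits completely: `l` is prime): ONE
enumeration is needed: `w 0` any place over `v`, `w (j+1) = σ⁻¹ (w j)` (the Galois group acts
transitively on the places over `v`, the orbit has `l` elements, so `w j ≠ w 0` for
`0 < j < l`), `i j` from `T6.InstSplitC` (`v` is unramified: `UnramOut305`; the residue fields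
agree: `l = e f g`, `g = l`); the levels are `0`, the convolution of unit elements is the unit
element, `unit ∘ i j = unit` (`i j` preserves the valuation). -/
def UnitMatchC893_311 : Prop :=
  T6.T6Out →
  ∀ D : CompData K K', IsCompData D → IsCycExt K K' D.l → D.l ≠ 2 → TotCplx K →
    ∀ μc : @Measure (GL (Fin 2) ℂ) (borel _), @Measure.IsHaarMeasure _ _ _ (borel _) μc →
    ∀ (T₀ : Finset (HeightOneSpectrum (𝓞 K))), UnramOut305 (K' := K') T₀ →
    ∀ (n : HeightOneSpectrum (𝓞 K') → ℕ) (m : HeightOneSpectrum (𝓞 K) → ℕ),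
      IsLevelAt305 T₀ n m →
    ∀ (T S : Finset (HeightOneSpectrum (𝓞 K))) (T' S' : Finset (HeightOneSpectrum (𝓞 K'))),
      T₀ ⊆ T → T ⊆ S → IsOver305 T T' → IsOver305 S S' →
    ∀ (φ₀ : ∀ w : HeightOneSpectrum (𝓞 K'), GL (Fin 2) (w.adicCompletion K') → ℂ)
      (Φ : InfinitePlace K' → GL (Fin 2) ℂ → ℂ)
      (f₀ : ∀ v : HeightOneSpectrum (𝓞 K), GL (Fin 2) (v.adicCompletion K) → ℂ)
      (F : InfinitePlace K → GL (Fin 2) ℂ → ℂ),
      LocHyp893 D μc T n m φ₀ Φ f₀ F →
      LocHyp893 D μc S n m (ext305 T' φ₀) Φ (ext305 T f₀) F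

/-- **NODE C2.7.13 v2 = FACT-UP for `LocHyp893`** (`H305.FactUpC305` with `LocHyp893`). -/
def FactUpC893_311 : Prop :=
  T6.T6Out →
  ∀ D : CompData K K', IsCompData D → IsCycExt K K' D.l → D.l ≠ 2 → TotCplx K →
    ∀ ι : Adl K →+* Adl K', IsAdeleBase305 D.s D.l ι →
    ∀ μc : @Measure (GL (Fin 2) ℂ) (borel _), @Measure.IsHaarMeasure _ _ _ (borel _) μc →
    ∀ (T₀ : Finset (HeightOneSpectrum (𝓞 K))), UnramOut305 (K' := K') T₀ →
    ∀ (n : HeightOneSpectrum (𝓞 K') → ℕ) (m : HeightOneSpectrum (𝓞 K) → ℕ),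
      IsLevelAt305 T₀ n m →
    ∃ cG' : ℝ, 0 < cG' ∧
      ∀ (S : Finset (HeightOneSpectrum (𝓞 K))) (S' : Finset (HeightOneSpectrum (𝓞 K'))),
        T₀ ⊆ S → IsOver305 S S' →
      ∀ (φ₀ : ∀ w : HeightOneSpectrum (𝓞 K'), GL (Fin 2) (w.adicCompletion K') → ℂ)
        (Φ : InfinitePlace K' → GL (Fin 2) ℂ → ℂ)
        (f₀ : ∀ v : HeightOneSpectrum (𝓞 K), GL (Fin 2) (v.adicCompletion K) → ℂ)
        (F : InfinitePlace K → GL (Fin 2) ℂ → ℂ),
        LocHyp893 D μc S n m φ₀ Φ f₀ F →
      ∀ (δ : GL (Fin 2) K') (γ : GL (Fin 2) K), T6.IsEll γ →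
        D.s.normUpTo D.l δ = Matrix.GeneralLinearGroup.map (algebraMap K K') γ →
        GoodOut305 S γ → IntOut305 S' δ →
      ∀ (μT : @Measure (tA305 (T5.AdelicAut.id K) γ) (borel _))
        (μT' : @Measure (tA305 D.s δ) (borel _)),
        @Measure.IsHaarMeasure _ _ _ (borel _) μT →
        @Measure.IsHaarMeasure _ _ _ (borel _) μT' →
        IsTorLinked305 ι D.s δ γ μT μT' →
      ∀ (L : LocData305 K γ) (cT : ℝ), IsLocData305 m L → 0 < cT → IsTorConst305 γ μT L cT →
        ∃ β' : G K' → ℝ,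
          IsCutOn305 D.s δ μT' β'
              {x | T5.twTerm D.R'.r D.s (pure305 S' φ₀ Φ) δ x ≠ 0} ∧
            cutInt305 D.R'.r D.s (pure305 S' φ₀ Φ) δ D.R'.μ β'
              = ((cG' / cT : ℝ) : ℂ) * factVal305 D.R.r S L f₀ μc F

/-- **NODE C2.7.13.1 v2 = UP-FACT for `LocHyp893`** (`H340.UpFactC340` with `LocHyp893`; global →
local upstairs, NO matching).  The only change of the conclusion: at a split place `v ∈ S` the
value `J v` is the split integral for an enumeration for which the levels agree and the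
convolution identity holds (`IsSplitValB311`).
Proof.  As `UpFactC340` (see its docstring); at a split place `v ∈ S` the enumeration and the
identifications `i j` are THE ONES OF `LocHyp893.split` (they are not constructed), the cut-off
upstairs at `v` is `β_v (i 0)⁻¹(y_{w 0})`. -/
def UpFactC893_311 : Prop :=
  T6.T6Out →
  ∀ D : CompData K K', IsCompData D → IsCycExt K K' D.l → D.l ≠ 2 → TotCplx K →
    ∀ ι : Adl K →+* Adl K', IsAdeleBase305 D.s D.l ι →
    ∀ μc : @Measure (GL (Fin 2) ℂ) (borel _), @Measure.IsHaarMeasure _ _ _ (borel _) μc →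
    ∀ (T₀ : Finset (HeightOneSpectrum (𝓞 K))), UnramOut305 (K' := K') T₀ →
    ∀ (n : HeightOneSpectrum (𝓞 K') → ℕ) (m : HeightOneSpectrum (𝓞 K) → ℕ),
      IsLevelAt305 T₀ n m →
    ∃ cG' : ℝ, 0 < cG' ∧
      ∀ (S : Finset (HeightOneSpectrum (𝓞 K))) (S' : Finset (HeightOneSpectrum (𝓞 K'))),
        T₀ ⊆ S → IsOver305 S S' →
      ∀ (φ₀ : ∀ w : HeightOneSpectrum (𝓞 K'), GL (Fin 2) (w.adicCompletion K') → ℂ)
        (Φ : InfinitePlace K' → GL (Fin 2) ℂ → ℂ)
        (f₀ : ∀ v : HeightOneSpectrum (𝓞 K), GL (Fin 2) (v.adicCompletion K) → ℂ)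
        (F : InfinitePlace K → GL (Fin 2) ℂ → ℂ),
        LocHyp893 D μc S n m φ₀ Φ f₀ F →
      ∀ (δ : GL (Fin 2) K') (γ : GL (Fin 2) K), T6.IsEll γ →
        D.s.normUpTo D.l δ = Matrix.GeneralLinearGroup.map (algebraMap K K') γ →
        GoodOut305 S γ → IntOut305 S' δ →
      ∀ (μT : @Measure (tA305 (T5.AdelicAut.id K) γ) (borel _))
        (μT' : @Measure (tA305 D.s δ) (borel _)),
        @Measure.IsHaarMeasure _ _ _ (borel _) μT →
        @Measure.IsHaarMeasure _ _ _ (borel _) μT' →
        IsTorLinked305 ι D.s δ γ μT μT' →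
      ∀ (L : LocData305 K γ) (cT : ℝ), IsLocData305 m L → 0 < cT → IsTorConst305 γ μT L cT →
        ∃ (β' : G K' → ℝ) (J : HeightOneSpectrum (𝓞 K) → ℂ) (Jc : InfinitePlace K → ℤ → ℂ),
          IsCutOn305 D.s δ μT' β'
              {x | T5.twTerm D.R'.r D.s (pure305 S' φ₀ Φ) δ x ≠ 0} ∧
            cutInt305 D.R'.r D.s (pure305 S' φ₀ Φ) δ D.R'.μ β'
              = ((cG' / cT : ℝ) : ℂ)
                * ∑' j : ℤ, (∏ v ∈ S, J v) * ∏ w : InfinitePlace K, Jc w j ∧
            (∀ v ∈ S, IsInertVal340 D n φ₀ δ v (J v) ∨ IsSplitValB311 D n m φ₀ f₀ δ L v (J v)) ∧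
            ∀ (w : InfinitePlace K) (j : ℤ), IsArchVal340 D ι Φ δ L μc w j (Jc w j)

/-- **LEAF C2.7.13.3 v2 = LOC-EQ-SPLIT, LOCAL FORM.**  The local twisted integral upstairs at a
split place, for an enumeration for which the convolution identity holds, is the local integral
downstairs.  No global local hypothesis: the invariance and the finite supports of the
components at `v` and over `v` are hypotheses, the convolution identity is part of
`IsSplitValB311`.
Proof.  As `H340.LocEqSplitC340`: `δ_0 δ_1 ⋯ δ_{l-1} = γ_v`; Fubini and the split integral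
identity for general `l` (helper159 `iterL_eq159`); `T6.IsConvProd` is the iterated integral
convolution for the measure with `vol U(m_v) = 1` (helper855 `isConvProd_chain855`). -/
def LocEqSplitC311 : Prop :=
  T6.T6Out →
  ∀ D : CompData K K', IsCompData D → IsCycExt K K' D.l → D.l ≠ 2 → TotCplx K →
    ∀ (n : HeightOneSpectrum (𝓞 K') → ℕ) (m : HeightOneSpectrum (𝓞 K) → ℕ)
      (φ₀ : ∀ w : HeightOneSpectrum (𝓞 K'), GL (Fin 2) (w.adicCompletion K') → ℂ)
      (f₀ : ∀ v : HeightOneSpectrum (𝓞 K), GL (Fin 2) (v.adicCompletion K) → ℂ),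
    ∀ (δ : GL (Fin 2) K') (γ : GL (Fin 2) K), T6.IsEll γ →
      D.s.normUpTo D.l δ = Matrix.GeneralLinearGroup.map (algebraMap K K') γ →
    ∀ L : LocData305 K γ, IsLocData305 m L →
    ∀ v : HeightOneSpectrum (𝓞 K),
      (T6.IsBiInv (T6.InU (m v)) (f₀ v) ∧ T6.HasFinSupp (T6.InU (m v)) (f₀ v)) →
      (∀ w : HeightOneSpectrum (𝓞 K'), PlaceOver K K' v w →
        T6.IsBiInv (T6.InU (n w)) (φ₀ w) ∧ T6.HasFinSupp (T6.InU (n w)) (φ₀ w)) →
    ∀ J : ℂ, IsSplitValB311 D n m φ₀ f₀ δ L v J →
      J = locInt305 (L.μv v) (L.βv v) (f₀ v) (locG305 v γ)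

end TwoFields

/-! ## Appendix: the equation lemmas of the definitions are realised HERE -/

theorem eqns_realisedM893_311 : True := by
  have _a1 := @IsSplitValB311.eq_1
  have _a2 := @IsSplitValB311.eq_def
  have _a3 := @IsSplitValB311.eq_unfold
  have _b1 := @CutIntC893_311.eq_1
  have _b2 := @CutIntC893_311.eq_def
  have _b3 := @CutIntC893_311.eq_unfold
  have _c1 := @UnitMatchC893_311.eq_1
  have _c2 := @UnitMatchC893_311.eq_def
  have _c3 := @UnitMatchC893_311.eq_unfold
  have _d1 := @FactUpC893_311.eq_1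
  have _d2 := @FactUpC893_311.eq_def
  have _d3 := @FactUpC893_311.eq_unfold
  have _e1 := @UpFactC893_311.eq_1
  have _e2 := @UpFactC893_311.eq_def
  have _e3 := @UpFactC893_311.eq_unfold
  have _f1 := @LocEqSplitC311.eq_1
  have _f2 := @LocEqSplitC311.eq_def
  have _f3 := @LocEqSplitC311.eq_unfold
  trivial

end Fermat.Agent.LT.T7.H311

end
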