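import Mathlib
import Fermat.Agent.LT.T7.H311.Match893Spec

/-!
# Row LT, tower T7, leaf C2.7.11 v2 `UnitMatchC893_311` (helper311): REDUCTION to the leaf
# `H305.UnitMatchC305` of helper305 and ONE new leaf on places

OFF-MAIN.  Complete proof, nothing assumed.

    unitMatch893_of311 : H305.UnitMatchC305 K K' → EnumExistsC311 K K' → UnitMatchC893_311 K K'

* `H305.UnitMatchC305` is applied to the ZERO components and the ZERO levels on `T₀` (they
  satisfy `LocHyp305` for trivial reasons: all orbit sums and all convolutions vanish); its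
  conclusion gives, at every place of `S` outside `T₀`, the clauses of `LocHyp305` for the UNIT
  elements (the fundamental lemma for the unit element), for ALL enumerations.
* At the places of `T` the hypotheses are those of `LocHyp893` for `T`.
* At a new split place ONE enumeration has to exist: the new leaf `EnumExistsC311`.
-/

set_option autoImplicit false
set_option linter.unusedSectionVars false
set_option linter.unusedVariables false

open AutomorphicForm IsDedekindDomain NumberField MeasureTheory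
open scoped ComplexConjugate

noncomputable section

namespace Fermat.Agent.LT.T7.H311

open Fermat.Agent.LT.H556 Fermat.Agent.LT.H556.A0 Fermat.Agent.LT.T7 Fermat.Agent.LT.T7.H305
open Fermat.Agent.LT.T7.H893 Fermat.Agent.LT.T7.H340

attribute [local instance] Fermat.Agent.LT.T5.instMeasurableSpaceG

variable (K K' : Type) [Field K] [NumberField K] [Field K'] [NumberField K'] [Algebra K K']

/-- **LEAF C2.7.11.E = ENUM-EXISTS (places; number theory).**  `K'/K` cyclic of prime degree `l`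
with generator `σ`, `v` a finite place of `K` outside `T₀` (unramified) with two places of `K'`
over it: there is an enumeration `w 0, w 1, …` of the places over `v` with `w j = σ(w (j+1))`,
`w j ≠ w 0` for `0 < j < l`, and identifications `i j : K_v ≃ K'_{w j}` which extend `K → K'`
and preserve the valuation.
Proof.  `e f g = l` (`K'/K` Galois), `g ≥ 2`, `l` prime: `g = l`, `e = f = 1`.  `w 0` any place
over `v`, `w (j+1) = σ⁻¹(w j)` (a place over `v`: `σ` fixes `K`).  If `w j = w 0` with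
`0 < j < l` then `σ^j` fixes `w 0`; `σ^j` generates the Galois group, which acts transitively on
the places over `v`: `w 0` is the only place over `v`, a contradiction.  `i j` from
`T6.InstSplitC` (`N (w j) = N v`; `v` is unramified: `UnramOut305`). -/
def EnumExistsC311 : Prop :=
  T6.T6Out →
  ∀ D : CompData K K', IsCompData D → IsCycExt K K' D.l →
    ∀ T₀ : Finset (HeightOneSpectrum (𝓞 K)), UnramOut305 (K' := K') T₀ →
    ∀ v : HeightOneSpectrum (𝓞 K), v ∉ T₀ →
      (∃ w₁ w₂ : HeightOneSpectrum (𝓞 K'),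
        PlaceOver K K' v w₁ ∧ PlaceOver K K' v w₂ ∧ w₁ ≠ w₂) →
      ∃ (w : ℕ → HeightOneSpectrum (𝓞 K'))
        (i : ∀ j : ℕ, v.adicCompletion K ≃+* (w j).adicCompletion K'),
        (∀ j : ℕ, PlaceOver K K' v (w j)) ∧ (∀ j : ℕ, T5.PlaceRel D.s (w (j + 1)) (w j)) ∧
        (∀ j : ℕ, 0 < j → j < D.l → w j ≠ w 0) ∧
        (∀ (j : ℕ) (x : K), i j (algebraMap K (v.adicCompletion K) x)
          = algebraMap K' ((w j).adicCompletion K') (algebraMap K K' x)) ∧
        (∀ (j : ℕ) (x : v.adicCompletion K), Valued.v (i j x) = Valued.v x)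

theorem eqns_realisedUM311 : True := by
  have _a1 := @EnumExistsC311.eq_1
  have _a2 := @EnumExistsC311.eq_def
  have _a3 := @EnumExistsC311.eq_unfold
  trivial

variable {K K'}

/-! ## The zero components -/

section Zero

variable {Γ : Type} [Group Γ]

theorem isBiInv_zero311 (U : Γ → Prop) : T6.IsBiInv U (fun _ : Γ => (0 : ℂ)) :=
  fun _ _ _ _ _ => rfl

theorem hasFinSupp_zero311 (U : Γ → Prop) : T6.HasFinSupp U (fun _ : Γ => (0 : ℂ)) :=
  ⟨∅, fun _ h => absurd rfl h⟩

theorem isOrbSumGen_zero311 (s : Γ →* Γ) (U : Γ → Prop) (C : Γ → Γ → Prop) (δ : Γ) (c : ℂ)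
    (h : T6.IsOrbSumGen s U C (fun _ : Γ => (0 : ℂ)) δ c) : c = 0 := by
  obtain ⟨R, -, -, -, hc⟩ := h
  rw [hc]
  simp

theorem isConv_zero311 (U : Γ → Prop) :
    T6.IsConv U (fun _ : Γ => (0 : ℂ)) (fun _ : Γ => (0 : ℂ)) (fun _ : Γ => (0 : ℂ)) := by
  intro g
  refine ⟨∅, ?_, ?_, ?_⟩
  · intro h hh
    exact absurd hh (Finset.notMem_empty h)
  · intro h hh
    exact absurd (by simp) hh
  · simp

theorem isConvProd_zero311 (U : Γ → Prop) (l : ℕ) :
    T6.IsConvProd U l (fun _ _ => (0 : ℂ)) (fun _ : Γ => (0 : ℂ)) :=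
  ⟨fun _ _ => 0, rfl, fun _ _ => isConv_zero311 U, rfl⟩

end Zero

/-- A place of `K'` lies over at most one place of `K`. -/
theorem placeOver_unique311 {v v' : HeightOneSpectrum (𝓞 K)} {w : HeightOneSpectrum (𝓞 K')}
    (h : PlaceOver K K' v w) (h' : PlaceOver K K' v' w) : v = v' := by
  apply HeightOneSpectrum.ext
  ext x
  have e : ((algebraMap (𝓞 K) (𝓞 K') x : 𝓞 K') : K') = algebraMap K K' (x : K) := rfl
  rw [h x _ e, h' x _ e]

/-- **THE ZERO DATA ON `T₀` WITH THE ZERO LEVELS SATISFY `LocHyp305`.** -/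
theorem locHyp305_zero311 {D : CompData K K'}
    {μc : @Measure (GL (Fin 2) ℂ) (borel _)} {T : Finset (HeightOneSpectrum (𝓞 K))}
    {n : HeightOneSpectrum (𝓞 K') → ℕ} {m : HeightOneSpectrum (𝓞 K) → ℕ}
    {φ₀ : ∀ w : HeightOneSpectrum (𝓞 K'), GL (Fin 2) (w.adicCompletion K') → ℂ}
    {Φ : InfinitePlace K' → GL (Fin 2) ℂ → ℂ}
    {f₀ : ∀ v : HeightOneSpectrum (𝓞 K), GL (Fin 2) (v.adicCompletion K) → ℂ}
    {F : InfinitePlace K → GL (Fin 2) ℂ → ℂ}
    (h : LocHyp893 D μc T n m φ₀ Φ f₀ F) (T₀ : Finset (HeightOneSpectrum (𝓞 K))) :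
    LocHyp305 D μc T₀ (fun _ => 0) (fun _ => 0) (fun _ _ => 0) Φ (fun _ _ => 0) F where
  inv_up := fun _ _ _ _ => ⟨isBiInv_zero311 _, hasFinSupp_zero311 _⟩
  inv_down := fun _ _ => ⟨isBiInv_zero311 _, hasFinSupp_zero311 _⟩
  arch_up := h.arch_up
  arch_down := h.arch_down
  inert := fun v _ w _ _ e i sw _ _ _ =>
    ⟨fun δ γ c c' _ _ hc hc' => by
        rw [isOrbSumGen_zero311 _ _ _ _ _ hc, isOrbSumGen_zero311 _ _ _ _ _ hc'],
      fun γ c' _ _ hc' => isOrbSumGen_zero311 _ _ _ _ _ hc'⟩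
  split := fun v _ w i _ _ _ _ _ => ⟨fun _ => rfl, isConvProd_zero311 _ _⟩
  arch := h.arch

/-- **THE REDUCTION.** -/
theorem unitMatch893_of311 (hU : UnitMatchC305 K K') (hE : EnumExistsC311 K K') :
    UnitMatchC893_311 K K' := by
  classical
  intro hT6 D hD hcyc hl hcplx μc hμc T₀ hun n m hlev T S T' S' hT₀T hTS hTT' hSS'
    φ₀ Φ f₀ F hloc
  -- the places over `T₀`
  set T₀' : Finset (HeightOneSpectrum (𝓞 K')) :=
    T'.filter (fun w => ∃ v ∈ T₀, PlaceOver K K' v w) with hT₀'
  have hOver₀ : IsOver305 T₀ T₀' := by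
    intro w
    rw [hT₀', Finset.mem_filter]
    constructor
    · exact fun h => h.2
    · rintro ⟨v, hv, hvw⟩
      exact ⟨(hTT' w).2 ⟨v, hT₀T hv, hvw⟩, v, hv, hvw⟩
  have hlev0 : IsLevelAt305 T₀ (fun _ : HeightOneSpectrum (𝓞 K') => 0)
      (fun _ : HeightOneSpectrum (𝓞 K) => 0) := ⟨fun _ _ => rfl, fun _ _ _ _ => rfl⟩
  have hZ := hU hT6 D hD hcyc hl hcplx μc hμc T₀ hun (fun _ => 0) (fun _ => 0) hlev0 T₀ S T₀' S'
    (Finset.Subset.refl _) (hT₀T.trans hTS) hOver₀ hSS' (fun _ _ => 0) Φ (fun _ _ => 0) F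
    (locHyp305_zero311 hloc T₀)
  -- the components
  have hup_old : ∀ v ∈ T, ∀ w : HeightOneSpectrum (𝓞 K'), PlaceOver K K' v w →
      ext305 T' φ₀ w = φ₀ w := by
    intro v hv w hw
    unfold ext305
    rw [if_pos ((hTT' w).2 ⟨v, hv, hw⟩)]
  have hdown_old : ∀ v ∈ T, ext305 T f₀ v = f₀ v := by
    intro v hv
    unfold ext305
    rw [if_pos hv]
  have hup_new : ∀ v : HeightOneSpectrum (𝓞 K), v ∉ T → ∀ w : HeightOneSpectrum (𝓞 K'),
      PlaceOver K K' v w → ext305 T' φ₀ w = unit305 := by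
    intro v hv w hw
    unfold ext305
    rw [if_neg]
    intro hwT
    obtain ⟨v', hv', hv'w⟩ := (hTT' w).1 hwT
    exact hv (by rw [placeOver_unique311 hw hv'w]; exact hv')
  have hdown_new : ∀ v : HeightOneSpectrum (𝓞 K), v ∉ T → ext305 T f₀ v = unit305 := by
    intro v hv
    unfold ext305
    rw [if_neg hv]
  have hZup : ∀ v : HeightOneSpectrum (𝓞 K), v ∉ T₀ → ∀ w : HeightOneSpectrum (𝓞 K'),
      PlaceOver K K' v w →
      ext305 T₀' (fun (w : HeightOneSpectrum (𝓞 K'))
        (_ : GL (Fin 2) (w.adicCompletion K')) => (0 : ℂ)) w = unit305 := by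
    intro v hv w hw
    unfold ext305
    rw [if_neg]
    intro hwT
    obtain ⟨v', hv', hv'w⟩ := (hOver₀ w).1 hwT
    exact hv (by rw [placeOver_unique311 hw hv'w]; exact hv')
  have hZdown : ∀ v : HeightOneSpectrum (𝓞 K), v ∉ T₀ →
      ext305 T₀ (fun (v : HeightOneSpectrum (𝓞 K))
        (_ : GL (Fin 2) (v.adicCompletion K)) => (0 : ℂ)) v = unit305 := by
    intro v hv
    unfold ext305
    rw [if_neg hv]
  have hn0 : ∀ v : HeightOneSpectrum (𝓞 K), v ∉ T → ∀ w : HeightOneSpectrum (𝓞 K'),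
      PlaceOver K K' v w → n w = 0 := fun v hv w hw => hlev.2 v w (fun h => hv (hT₀T h)) hw
  have hm0 : ∀ v : HeightOneSpectrum (𝓞 K), v ∉ T → m v = 0 :=
    fun v hv => hlev.1 v (fun h => hv (hT₀T h))
  refine ⟨?_, ?_, hloc.arch_up, hloc.arch_down, ?_, ?_, hloc.arch⟩
  · -- inv_up
    intro v hv w hw
    by_cases hvT : v ∈ T
    · rw [hup_old v hvT w hw]
      exact hloc.inv_up v hvT w hw
    · have h := hZ.inv_up v hv w hw
      rw [hZup v (fun h => hvT (hT₀T h)) w hw] at h
      rw [hup_new v hvT w hw, hn0 v hvT w hw]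
      exact h
  · -- inv_down
    intro v hv
    by_cases hvT : v ∈ T
    · rw [hdown_old v hvT]
      exact hloc.inv_down v hvT
    · have h := hZ.inv_down v hv
      rw [hZdown v (fun h => hvT (hT₀T h))] at h
      rw [hdown_new v hvT, hm0 v hvT]
      exact h
  · -- inert
    intro v hv w hw huniq e i sw hi hsw hext
    by_cases hvT : v ∈ T
    · rw [hup_old v hvT w hw, hdown_old v hvT]
      exact hloc.inert v hvT w hw huniq e i sw hi hsw hext
    · have h := hZ.inert v hv w hw huniq e i sw hi hsw hext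
      rw [hZup v (fun h => hvT (hT₀T h)) w hw, hZdown v (fun h => hvT (hT₀T h))] at h
      rw [hup_new v hvT w hw, hdown_new v hvT, hn0 v hvT w hw, hm0 v hvT]
      exact h
  · -- split
    intro v hv hsp
    by_cases hvT : v ∈ T
    · obtain ⟨w, i, h1, h2, h3, h4, h5, h6, h7⟩ := hloc.split v hvT hsp
      refine ⟨w, i, h1, h2, h3, h4, h5, h6, ?_⟩
      rw [hdown_old v hvT]
      have e : (fun (j : ℕ) (g : GL (Fin 2) (v.adicCompletion K)) => ext305 T' φ₀ (w j)
            (Matrix.GeneralLinearGroup.map ((i j : v.adicCompletion K ≃+* _) :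
              v.adicCompletion K →+* (w j).adicCompletion K') g))
          = fun (j : ℕ) (g : GL (Fin 2) (v.adicCompletion K)) => φ₀ (w j)
            (Matrix.GeneralLinearGroup.map ((i j : v.adicCompletion K ≃+* _) :
              v.adicCompletion K →+* (w j).adicCompletion K') g) := by
        funext j g
        rw [hup_old v hvT (w j) (h1 j)]
      rw [e]
      exact h7
    · have hv0 : v ∉ T₀ := fun h => hvT (hT₀T h)
      obtain ⟨w, i, h1, h2, h3, h4, h5⟩ := hE hT6 D hD hcyc T₀ hun v hv0 hsp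
      obtain ⟨-, h7⟩ := hZ.split v hv w i h1 h2 h3 h4 h5
      refine ⟨w, i, h1, h2, h3, h4, h5, fun j => ?_, ?_⟩
      · rw [hn0 v hvT (w j) (h1 j), hm0 v hvT]
      · rw [hZdown v hv0] at h7
        have e : (fun (j : ℕ) (g : GL (Fin 2) (v.adicCompletion K)) =>
              ext305 T₀' (fun (w : HeightOneSpectrum (𝓞 K'))
                (_ : GL (Fin 2) (w.adicCompletion K')) => (0 : ℂ)) (w j)
              (Matrix.GeneralLinearGroup.map ((i j : v.adicCompletion K ≃+* _) :
                v.adicCompletion K →+* (w j).adicCompletion K') g))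
            = fun (j : ℕ) (g : GL (Fin 2) (v.adicCompletion K)) => ext305 T' φ₀ (w j)
              (Matrix.GeneralLinearGroup.map ((i j : v.adicCompletion K ≃+* _) :
                v.adicCompletion K →+* (w j).adicCompletion K') g) := by
          funext j g
          rw [hZup v hv0 (w j) (h1 j), hup_new v hvT (w j) (h1 j)]
        rw [e] at h7
        rw [hdown_new v hvT, hm0 v hvT]
        exact h7

end Fermat.Agent.LT.T7.H311

end
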