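import Mathlib
import Fermat.Agent.LT.T7.H311.UnitMatch893

/-!
# Row LT, tower T7, leaf C2.7.11.E `EnumExistsC311` (helper311): PROVED

OFF-MAIN.  Complete proof, nothing assumed.

    enumExistsC311 (K K') : EnumExistsC311 K K'
    unitMatch893_closed311 : H305.UnitMatchC305 K K' → UnitMatchC893_311 K K'

* the places `w (j+1) = σ⁻¹(w j)` (`pullPlace311`, `enumPl311`);
* `σ` is a `K`-automorphism (`IsCompData.base`, `IsCyclicOfDegree.fixed`): the places lie
  over `v`;
* `g e f = l` (`Ideal.ncard_primesOver_mul_ramificationIdxIn_mul_inertiaDegIn`), `g ≥ 2`, `l`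
  prime: `f = 1`, so `N w = N v` at every place over `v`;
* the stabiliser of `w 0` in the Galois group (of prime order `l`) is trivial: otherwise it is
  the whole group, and `w 0` is the only place over `v` (transitivity);
* the identifications: `T6.InstSplitC` (component of `T6.T6Out`).
-/

set_option autoImplicit false
set_option linter.unusedSectionVars false
set_option linter.unusedVariables false
set_option linter.style.haveILetI false

open AutomorphicForm IsDedekindDomain NumberField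
open scoped Pointwise

noncomputable section

namespace Fermat.Agent.LT.T7.H311

open Fermat.Agent.LT.H556 Fermat.Agent.LT.H556.A0 Fermat.Agent.LT.T7 Fermat.Agent.LT.T7.H305

variable {K K' : Type} [Field K] [NumberField K] [Field K'] [NumberField K'] [Algebra K K']

/-! ## The places `σ⁻¹(w)` -/

/-- The place `σ⁻¹(w)`. -/
def pullPlace311 (σ : K' ≃+* K') (w : HeightOneSpectrum (𝓞 K')) : HeightOneSpectrum (𝓞 K') where
  asIdeal := Ideal.comap (RingOfIntegers.mapRingEquiv σ) w.asIdeal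
  isPrime := Ideal.comap_isPrime _ _
  ne_bot := by
    intro h
    apply w.ne_bot
    rw [eq_bot_iff]
    intro y hy
    have h1 : (RingOfIntegers.mapRingEquiv σ).symm y
        ∈ Ideal.comap (RingOfIntegers.mapRingEquiv σ) w.asIdeal := by
      rw [Ideal.mem_comap, RingEquiv.apply_symm_apply]
      exact hy
    rw [h, Ideal.mem_bot] at h1
    have h2 : y = 0 := by
      have := congrArg (RingOfIntegers.mapRingEquiv σ) h1
      rwa [RingEquiv.apply_symm_apply, map_zero] at this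
    rw [h2]
    exact Ideal.zero_mem _

theorem mem_pullPlace311 (σ : K' ≃+* K') (w : HeightOneSpectrum (𝓞 K')) (y : 𝓞 K') :
    y ∈ (pullPlace311 σ w).asIdeal ↔ RingOfIntegers.mapRingEquiv σ y ∈ w.asIdeal :=
  Iff.rfl

theorem map_pullPlace311 (σ : K' ≃+* K') (w : HeightOneSpectrum (𝓞 K')) :
    w.asIdeal = Ideal.map (RingOfIntegers.mapRingEquiv σ) (pullPlace311 σ w).asIdeal :=
  (Ideal.map_comap_of_surjective _ (RingOfIntegers.mapRingEquiv σ).surjective _).symm

/-- The enumeration `w, σ⁻¹(w), σ⁻²(w), …`. -/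
def enumPl311 (σ : K' ≃+* K') (w : HeightOneSpectrum (𝓞 K')) : ℕ → HeightOneSpectrum (𝓞 K')
  | 0 => w
  | j + 1 => pullPlace311 σ (enumPl311 σ w j)

theorem enumPl_zero311 (σ : K' ≃+* K') (w : HeightOneSpectrum (𝓞 K')) :
    enumPl311 σ w 0 = w := rfl

theorem enumPl_succ311 (σ : K' ≃+* K') (w : HeightOneSpectrum (𝓞 K')) (j : ℕ) :
    enumPl311 σ w (j + 1) = pullPlace311 σ (enumPl311 σ w j) := rfl

theorem eqns_realisedEE311 : True := by
  have _a1 := @pullPlace311.eq_1
  have _a2 := @enumPl311.eq_1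
  have _a3 := @enumPl311.eq_2
  have _a4 := @enumPl311.eq_def
  have _a5 := @enumPl311.eq_unfold
  trivial

/-- `σ⁻¹(w)` lies over `v` if `w` does and `σ` fixes `K`. -/
theorem placeOver_pull311 (σ : K' ≃+* K') (hσ : ∀ x : K, σ (algebraMap K K' x) = algebraMap K K' x)
    {v : HeightOneSpectrum (𝓞 K)} {w : HeightOneSpectrum (𝓞 K')} (hw : PlaceOver K K' v w) :
    PlaceOver K K' v (pullPlace311 σ w) := by
  intro x y hy
  rw [mem_pullPlace311]
  have e : RingOfIntegers.mapRingEquiv σ y = y := by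
    apply RingOfIntegers.ext
    rw [RingOfIntegers.mapRingEquiv_apply, hy, hσ]
  rw [e]
  exact hw x y hy

theorem placeOver_enum311 (σ : K' ≃+* K') (hσ : ∀ x : K, σ (algebraMap K K' x) = algebraMap K K' x)
    {v : HeightOneSpectrum (𝓞 K)} {w : HeightOneSpectrum (𝓞 K')} (hw : PlaceOver K K' v w)
    (j : ℕ) : PlaceOver K K' v (enumPl311 σ w j) := by
  induction j with
  | zero => exact hw
  | succ j ih => exact placeOver_pull311 σ hσ ih

/-! ## `PlaceOver` and `LiesOver` -/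

theorem liesOver_of_placeOver311 {v : HeightOneSpectrum (𝓞 K)} {w : HeightOneSpectrum (𝓞 K')}
    (hw : PlaceOver K K' v w) : w.asIdeal.LiesOver v.asIdeal := by
  refine ⟨?_⟩
  ext x
  rw [Ideal.under_def, Ideal.mem_comap]
  exact hw x (algebraMap (𝓞 K) (𝓞 K') x) rfl

theorem over_iff311 {v : HeightOneSpectrum (𝓞 K)} {w : HeightOneSpectrum (𝓞 K')}
    (hw : PlaceOver K K' v w) (x : 𝓞 K) :
    x ∈ v.asIdeal ↔ algebraMap (𝓞 K) (𝓞 K') x ∈ w.asIdeal :=
  hw x (algebraMap (𝓞 K) (𝓞 K') x) rfl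

/-! ## Residue degree one at a split place -/

/-- `K'/K` Galois of prime degree, two places over `v`: `N w = N v` at every place over `v`. -/
theorem absNorm_split311 {l : ℕ} (hcyc : IsCycExt K K' l) {v : HeightOneSpectrum (𝓞 K)}
    (hsp : ∃ w₁ w₂ : HeightOneSpectrum (𝓞 K'),
      PlaceOver K K' v w₁ ∧ PlaceOver K K' v w₂ ∧ w₁ ≠ w₂)
    {w : HeightOneSpectrum (𝓞 K')} (hw : PlaceOver K K' v w) :
    Ideal.absNorm w.asIdeal = Ideal.absNorm v.asIdeal := by
  haveI := hcyc.galois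
  haveI : v.asIdeal.IsPrime := v.isPrime
  haveI : v.asIdeal.IsMaximal := v.isMaximal
  have hfund := Ideal.ncard_primesOver_mul_ramificationIdxIn_mul_inertiaDegIn v.asIdeal (𝓞 K')
    Gal(K'/K)
  rw [IsGalois.card_aut_eq_finrank, hcyc.degree] at hfund
  have hdvd : (Ideal.primesOver v.asIdeal (𝓞 K')).ncard ∣ l := ⟨_, hfund.symm⟩
  obtain ⟨w₁, w₂, h1, h2, hne⟩ := hsp
  have hfin : (Ideal.primesOver v.asIdeal (𝓞 K')).Finite := by
    apply Set.finite_of_ncard_ne_zero
    intro h0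
    rw [h0, zero_mul] at hfund
    exact hcyc.prime.ne_zero hfund.symm
  have hg1 : (Ideal.primesOver v.asIdeal (𝓞 K')).ncard ≠ 1 := by
    intro hg
    obtain ⟨P₀, hP₀⟩ := Set.ncard_eq_one.mp hg
    have m1 : w₁.asIdeal ∈ Ideal.primesOver v.asIdeal (𝓞 K') :=
      ⟨w₁.isPrime, liesOver_of_placeOver311 h1⟩
    have m2 : w₂.asIdeal ∈ Ideal.primesOver v.asIdeal (𝓞 K') :=
      ⟨w₂.isPrime, liesOver_of_placeOver311 h2⟩
    rw [hP₀, Set.mem_singleton_iff] at m1 m2
    exact hne (HeightOneSpectrum.ext (m1.trans m2.symm))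
  have hgl : (Ideal.primesOver v.asIdeal (𝓞 K')).ncard = l := by
    rcases (Nat.dvd_prime hcyc.prime).mp hdvd with h | h
    · exact absurd h hg1
    · exact h
  rw [hgl] at hfund
  have hef : Ideal.ramificationIdxIn v.asIdeal (𝓞 K') * Ideal.inertiaDegIn v.asIdeal (𝓞 K')
      = 1 :=
    Nat.eq_of_mul_eq_mul_left hcyc.prime.pos (by rw [hfund, mul_one])
  have hf : Ideal.inertiaDegIn v.asIdeal (𝓞 K') = 1 := Nat.eq_one_of_mul_eq_one_left hef
  haveI hPprime : w.asIdeal.IsPrime := w.isPrime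
  haveI hPover : w.asIdeal.LiesOver v.asIdeal := liesOver_of_placeOver311 hw
  rw [Ideal.inertiaDegIn_eq_inertiaDeg v.asIdeal w.asIdeal Gal(K'/K)] at hf
  haveI : w.asIdeal.IsMaximal := w.isMaximal
  have h := Ideal.absNorm_eq_pow_inertiaDeg'_of_liesOver w.asIdeal v.asIdeal v.isPrime v.ne_bot
  rw [Ideal.inertiaDeg'_eq_inertiaDeg, hf, pow_one] at h
  exact h

/-! ## The stabiliser of a place over a split place is trivial -/

/-- The `K`-automorphism given by a ring automorphism which fixes `K`. -/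
def algOf311 (σ : K' ≃+* K') (hσ : ∀ x : K, σ (algebraMap K K' x) = algebraMap K K' x) :
    K' ≃ₐ[K] K' :=
  AlgEquiv.ofRingEquiv (f := σ) hσ

theorem algOf_apply311 (σ : K' ≃+* K')
    (hσ : ∀ x : K, σ (algebraMap K K' x) = algebraMap K K' x) (x : K') :
    algOf311 σ hσ x = σ x := rfl

theorem algOf_pow311 (σ : K' ≃+* K')
    (hσ : ∀ x : K, σ (algebraMap K K' x) = algebraMap K K' x) (j : ℕ) (x : K') :
    (algOf311 σ hσ ^ j) x = (σ ^ j) x := by
  induction j generalizing x with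
  | zero => rfl
  | succ j ih =>
    rw [pow_succ, pow_succ, AlgEquiv.mul_apply, ih, algOf_apply311]
    rfl

theorem eqns_realisedEE2_311 : True := by
  have _a1 := @algOf311.eq_1
  trivial

/-- `g • σ⁻¹(w) = w` for the `K`-automorphism `g` given by `σ`. -/
theorem smul_pull311 (σ : K' ≃+* K')
    (hσ : ∀ x : K, σ (algebraMap K K' x) = algebraMap K K' x) (w : HeightOneSpectrum (𝓞 K')) :
    algOf311 σ hσ • (pullPlace311 σ w).asIdeal = w.asIdeal := by
  ext y
  rw [Ideal.mem_pointwise_smul_iff_inv_smul_mem, mem_pullPlace311]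
  have e : RingOfIntegers.mapRingEquiv σ ((algOf311 σ hσ)⁻¹ • y) = y := by
    apply RingOfIntegers.ext
    rw [RingOfIntegers.mapRingEquiv_apply]
    change σ ((algOf311 σ hσ)⁻¹ (y : K')) = (y : K')
    have := AlgEquiv.apply_symm_apply (algOf311 σ hσ) (y : K')
    exact this
  rw [e]

theorem pow_smul_enum311 (σ : K' ≃+* K')
    (hσ : ∀ x : K, σ (algebraMap K K' x) = algebraMap K K' x) (w : HeightOneSpectrum (𝓞 K'))
    (j : ℕ) : (algOf311 σ hσ) ^ j • (enumPl311 σ w j).asIdeal = w.asIdeal := by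
  induction j with
  | zero => rw [pow_zero, one_smul]; rfl
  | succ j ih =>
    rw [pow_succ, mul_smul, enumPl_succ311, smul_pull311, ih]

/-- **THE STABILISER IS TRIVIAL.** -/
theorem enum_ne311 {l : ℕ} (hcyc : IsCycExt K K' l) (σ : K' ≃+* K')
    (hσ : ∀ x : K, σ (algebraMap K K' x) = algebraMap K K' x)
    (hfaith : ∀ j : ℕ, 0 < j → j < l → ∃ x : K', (σ ^ j) x ≠ x)
    {v : HeightOneSpectrum (𝓞 K)} {w₁ w₂ : HeightOneSpectrum (𝓞 K')}
    (h1 : PlaceOver K K' v w₁) (h2 : PlaceOver K K' v w₂) (hne : w₁ ≠ w₂)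
    (j : ℕ) (hj0 : 0 < j) (hjl : j < l) : enumPl311 σ w₁ j ≠ enumPl311 σ w₁ 0 := by
  intro heq
  rw [enumPl_zero311] at heq
  haveI := hcyc.galois
  haveI : v.asIdeal.IsPrime := v.isPrime
  haveI : v.asIdeal.IsMaximal := v.isMaximal
  haveI : w₁.asIdeal.IsPrime := w₁.isPrime
  haveI : w₂.asIdeal.IsPrime := w₂.isPrime
  haveI : w₁.asIdeal.LiesOver v.asIdeal := liesOver_of_placeOver311 h1
  haveI : w₂.asIdeal.LiesOver v.asIdeal := liesOver_of_placeOver311 h2
  have hcard : Nat.card Gal(K'/K) = l := by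
    rw [IsGalois.card_aut_eq_finrank, hcyc.degree]
  haveI : Fact (Nat.card Gal(K'/K)).Prime := ⟨by rw [hcard]; exact hcyc.prime⟩
  -- the stabiliser
  have hstab : (algOf311 σ hσ) ^ j ∈ MulAction.stabilizer Gal(K'/K) w₁.asIdeal := by
    rw [MulAction.mem_stabilizer_iff]
    have := pow_smul_enum311 σ hσ w₁ j
    rw [heq] at this
    exact this
  have hne1 : (algOf311 σ hσ) ^ j ≠ 1 := by
    intro h
    obtain ⟨x, hx⟩ := hfaith j hj0 hjl
    apply hx
    rw [← algOf_pow311 σ hσ j x, h]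
    rfl
  have htop : MulAction.stabilizer Gal(K'/K) w₁.asIdeal = ⊤ := by
    rcases (MulAction.stabilizer Gal(K'/K) w₁.asIdeal).eq_bot_or_eq_top_of_prime_card with h | h
    · rw [h, Subgroup.mem_bot] at hstab
      exact absurd hstab hne1
    · exact h
  obtain ⟨τ, hτ⟩ := Ideal.exists_smul_eq_of_isGaloisGroup v.asIdeal w₁.asIdeal w₂.asIdeal
    Gal(K'/K)
  have hτ1 : τ ∈ MulAction.stabilizer Gal(K'/K) w₁.asIdeal := by
    rw [htop]
    exact Subgroup.mem_top τ
  rw [MulAction.mem_stabilizer_iff] at hτ1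
  rw [hτ1] at hτ
  exact hne (HeightOneSpectrum.ext hτ)

/-! ## The leaf -/

/-- **LEAF C2.7.11.E = ENUM-EXISTS**, VERBATIM. -/
theorem enumExistsC311 (K K' : Type) [Field K] [NumberField K] [Field K'] [NumberField K']
    [Algebra K K'] : EnumExistsC311 K K' := by
  intro hT6 D hD hcyc T₀ hun v hv hsp
  have hInst : T6.InstSplitC := hT6.2.2.2.2.2.2.2.1
  have hσ : ∀ x : K, D.s.σ (algebraMap K K' x) = algebraMap K K' x := by
    intro x
    exact (hD.cyc.fixed _).1 ((hD.base _).2 ⟨x, rfl⟩)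
  obtain ⟨w₁, w₂, h1, h2, hne⟩ := hsp
  have hover : ∀ j : ℕ, PlaceOver K K' v (enumPl311 D.s.σ w₁ j) :=
    placeOver_enum311 D.s.σ hσ h1
  have hiso : ∀ j : ℕ, ∃ i : v.adicCompletion K ≃+* (enumPl311 D.s.σ w₁ j).adicCompletion K',
      (∀ x : K, i (algebraMap K (v.adicCompletion K) x)
        = algebraMap K' ((enumPl311 D.s.σ w₁ j).adicCompletion K') (algebraMap K K' x)) ∧
      ∀ x : v.adicCompletion K, Valued.v (i x) = Valued.v x := by
    intro j
    exact hInst K K' v (enumPl311 D.s.σ w₁ j) (over_iff311 (hover j))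
      (absNorm_split311 hcyc ⟨w₁, w₂, h1, h2, hne⟩ (hover j)) (hun v hv _ (hover j))
  choose i hi1 hi2 using hiso
  refine ⟨enumPl311 D.s.σ w₁, i, hover, ?_, ?_, hi1, hi2⟩
  · intro j
    exact map_pullPlace311 D.s.σ (enumPl311 D.s.σ w₁ j)
  · intro j hj0 hjl
    exact enum_ne311 hcyc D.s.σ hσ hD.cyc.faithful h1 h2 hne j hj0 hjl

/-- **`UnitMatchC893_311` from `H305.UnitMatchC305` alone.** -/
theorem unitMatch893_closed311 (hU : UnitMatchC305 K K') : UnitMatchC893_311 K K' :=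
  unitMatch893_of311 hU (enumExistsC311 K K')

end Fermat.Agent.LT.T7.H311

end
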